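import Mathlib
import Fermat.Agent.MUL.Lib.BadRed.Mod.SeedOfU
import Fermat.Agent.MUL.Lib.BadRed.Graph.MultiNodeDefs
import Fermat.Agent.MUL.Lib.FF.GoodEll.Chart

section MergeWrap_S36_Seed_Deg -- from S36/Seed/Deg.lean

/-!
# Cluster G (S36), seat SEED-DEG (helper13): the degree inequality `hdeg` of the seed, abstract part

Seed function `x = u + ϖ / u + ∑_cl y cl` on a function field `F / K` with a family of constant
reductions `S c` (`c : κ`).  Three disjoint sets of components: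

* `V₁` (for the modular graph: `∞` and the middle components): `red_c x = red_c u`, and `V₁` is
  the set of ALL the extensions of the Gauss valuation of `K(u)` (`deg₁` of `MNData`);
* `V₂` (for the modular graph: `0`): `red_c x = red_c (ϖ / u)`, ALL the extensions of the Gauss
  valuation of `K(ϖ / u)` (`deg₂` of `MNData`);
* `VP cl` (the horizontal components `w_P`, `P ∈ cl`): `red_c x = red_c (y cl)`, ALL the
  extensions of the Gauss valuation of `K(y cl)` (`degP`, from W-P).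

Then  `deg (x)_∞ ≤ 2 [F : K(u)] + ∑_cl [F : K(y cl)] ≤ ∑_c deg (red_c x)_∞`   (`sdeg_hdeg`):
the hypothesis `hdeg` of the graph seed attached to `x`.

* `sdeg_poleDiv_add_le`, `sdeg_poleDiv_sum_le` : `(f + g)_∞ ≤ (f)_∞ + (g)_∞`;
* `sdeg_finrank_le_degree_poleDiv` : `[F : K(x)] ≤ deg (x)_∞` (junk-value safe: no finiteness);
* `sdeg_degree_le` : the first inequality; `sdeg_le_sum` : the second one.
-/

set_option autoImplicit false
set_option linter.unusedSectionVars false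

noncomputable section

open AlgebraicCurve Fermat.Agent.RR Fermat.Agent.Deuring IntermediateField WithZero

namespace Fermat.Agent.S36G

open Fermat.Agent.BadRed.SeedPoles

section OneField

variable {K F : Type*} [Field K] [Field F] [Algebra K F] (h : IsRRField K F)

/-- `(f + g)_∞ ≤ (f)_∞ + (g)_∞`. -/
theorem sdeg_poleDiv_add_le (f g : F) : poleDiv h (f + g) ≤ poleDiv h f + poleDiv h g := by
  rw [Finsupp.le_def]
  intro v
  rw [Finsupp.add_apply]
  have hf0 := poleDiv_apply_nonneg h f v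
  have hg0 := poleDiv_apply_nonneg h g v
  rw [poleDiv_le_iff h (f + g) v (add_nonneg hf0 hg0)]
  have hf : v.adicValuation f ≤ exp (poleDiv h f v + poleDiv h g v) :=
    ((poleDiv_le_iff h f v hf0).mp le_rfl).trans (exp_le_exp.mpr (by omega))
  have hg : v.adicValuation g ≤ exp (poleDiv h f v + poleDiv h g v) :=
    ((poleDiv_le_iff h g v hg0).mp le_rfl).trans (exp_le_exp.mpr (by omega))
  exact (Valuation.map_add _ _ _).trans (max_le hf hg)

theorem sdeg_poleDiv_zero : poleDiv h (0 : F) = 0 := by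
  ext v
  rw [poleDiv_apply, v.ord_zero]
  simp

/-- `(∑ f_i)_∞ ≤ ∑ (f_i)_∞`. -/
theorem sdeg_poleDiv_sum_le {ι : Type*} (s : Finset ι) (f : ι → F) :
    poleDiv h (∑ i ∈ s, f i) ≤ ∑ i ∈ s, poleDiv h (f i) := by
  classical
  induction s using Finset.induction_on with
  | empty => rw [Finset.sum_empty, Finset.sum_empty, sdeg_poleDiv_zero]
  | insert a s ha ih =>
    rw [Finset.sum_insert ha, Finset.sum_insert ha]
    exact (sdeg_poleDiv_add_le h _ _).trans (add_le_add le_rfl ih)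

/-- `[F : K(x)] ≤ deg (x)_∞` (with the junk value `0` of `finrank` if `F / K(x)` is not
finite). -/
theorem sdeg_finrank_le_degree_poleDiv {x : F} (hx : Transcendental K x) :
    (Module.finrank K⟮x⟯ F : ℤ) ≤ Divisor.degree (poleDiv h x) := by
  by_cases hfin : FiniteDimensional K⟮x⟯ F
  · rw [Fermat.Agent.RRHur.degree_poleDiv_eq_finrank h hx]
  · rw [Module.finrank_of_not_finite hfin, Nat.cast_zero]
    exact degree_nonneg_of_nonneg h (poleDiv_nonneg h x)

/-- the first inequality: `deg (u + ϖ / u + ∑ y cl)_∞ ≤ 2 [F : K(u)] + ∑ deg (y cl)_∞`. -/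
theorem sdeg_degree_le {u : F} (hu : Transcendental K u) [FiniteDimensional K⟮u⟯ F]
    {ϖ : K} (hϖ : ϖ ≠ 0) {Cl : Type*} [Fintype Cl] (y : Cl → F) :
    Divisor.degree (poleDiv h (u + algebraMap K F ϖ / u + ∑ cl, y cl)) ≤
      2 * (Module.finrank K⟮u⟯ F : ℤ) + ∑ cl, Divisor.degree (poleDiv h (y cl)) := by
  have h1 := degree_le_of_le h (sdeg_poleDiv_add_le h (u + algebraMap K F ϖ / u) (∑ cl, y cl))
  have h2 := degree_le_of_le h (sdeg_poleDiv_sum_le h Finset.univ y)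
  rw [map_add, degree_poleDiv_add_div h hu hϖ] at h1
  rw [map_sum] at h2
  linarith

end OneField

section Family

variable {K F k : Type*} [Field K] [Field F] [Algebra K F] [Field k]
  {κ : Type*} [Fintype κ] {Fk : κ → Type*} [∀ c, Field (Fk c)] [∀ c, Algebra k (Fk c)]
  (S : ∀ c : κ, ValSetup K F k (Fk c))

/-- the second inequality: `2 [F : K(u)] + ∑ [F : K(y cl)] ≤ ∑_c deg (red_c x)_∞`. -/
theorem sdeg_le_sum [DecidableEq κ] {Cl : Type*} [Fintype Cl] [DecidableEq Cl]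
    (x u : F) (ϖ : K) (y : Cl → F) (d : Cl → ℤ)
    (V₁ V₂ : Finset κ) (VP : Cl → Finset κ)
    (h12 : Disjoint V₁ V₂) (h1P : ∀ cl, Disjoint V₁ (VP cl)) (h2P : ∀ cl, Disjoint V₂ (VP cl))
    (hPP : ∀ cl cl', cl ≠ cl' → Disjoint (VP cl) (VP cl'))
    (hr₁ : ∀ c ∈ V₁, (S c).red x = (S c).red u)
    (hr₂ : ∀ c ∈ V₂, (S c).red x = (S c).red (algebraMap K F ϖ / u))
    (hrP : ∀ cl, ∀ c ∈ VP cl, (S c).red x = (S c).red (y cl))
    (htr₁ : ∀ c ∈ V₁, Transcendental k ((S c).red u))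
    (htr₂ : ∀ c ∈ V₂, Transcendental k ((S c).red (algebraMap K F ϖ / u)))
    (htrP : ∀ cl, ∀ c ∈ VP cl, Transcendental k ((S c).red (y cl)))
    (deg₁ : Module.finrank K⟮u⟯ F ≤ ∑ c ∈ V₁, Module.finrank k⟮(S c).red u⟯ (Fk c))
    (deg₂ : Module.finrank K⟮u⟯ F ≤
      ∑ c ∈ V₂, Module.finrank k⟮(S c).red (algebraMap K F ϖ / u)⟯ (Fk c))
    (degP : ∀ cl, d cl ≤ ∑ c ∈ VP cl, (Module.finrank k⟮(S c).red (y cl)⟯ (Fk c) : ℤ)) :
    2 * (Module.finrank K⟮u⟯ F : ℤ) + ∑ cl, d cl ≤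
      ∑ c, Divisor.degree (poleDiv (S c).hFk ((S c).red x)) := by
  have hnn : ∀ c, 0 ≤ Divisor.degree (poleDiv (S c).hFk ((S c).red x)) := fun c =>
    degree_nonneg_of_nonneg (S c).hFk (poleDiv_nonneg _ _)
  -- the three partial sums
  have e₁ : (Module.finrank K⟮u⟯ F : ℤ) ≤
      ∑ c ∈ V₁, Divisor.degree (poleDiv (S c).hFk ((S c).red x)) := by
    have hc1 : (Module.finrank K⟮u⟯ F : ℤ) ≤
        ((∑ c ∈ V₁, Module.finrank k⟮(S c).red u⟯ (Fk c) : ℕ) : ℤ) := by exact_mod_cast deg₁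
    refine le_trans hc1 ?_
    rw [Nat.cast_sum]
    refine Finset.sum_le_sum fun c hc => ?_
    rw [hr₁ c hc]
    exact sdeg_finrank_le_degree_poleDiv (S c).hFk (htr₁ c hc)
  have e₂ : (Module.finrank K⟮u⟯ F : ℤ) ≤
      ∑ c ∈ V₂, Divisor.degree (poleDiv (S c).hFk ((S c).red x)) := by
    have hc2 : (Module.finrank K⟮u⟯ F : ℤ) ≤
        ((∑ c ∈ V₂, Module.finrank k⟮(S c).red (algebraMap K F ϖ / u)⟯ (Fk c) : ℕ) : ℤ) := by
      exact_mod_cast deg₂
    refine le_trans hc2 ?_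
    rw [Nat.cast_sum]
    refine Finset.sum_le_sum fun c hc => ?_
    rw [hr₂ c hc]
    exact sdeg_finrank_le_degree_poleDiv (S c).hFk (htr₂ c hc)
  have eP : ∀ cl, d cl ≤ ∑ c ∈ VP cl, Divisor.degree (poleDiv (S c).hFk ((S c).red x)) := by
    intro cl
    refine le_trans (degP cl) ?_
    refine Finset.sum_le_sum fun c hc => ?_
    rw [hrP cl c hc]
    exact sdeg_finrank_le_degree_poleDiv (S c).hFk (htrP cl c hc)
  -- the union
  have hdP : ((Finset.univ : Finset Cl) : Set Cl).PairwiseDisjoint VP :=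
    fun a _ b _ hab => hPP a b hab
  have hU : ∑ c ∈ Finset.univ.biUnion VP, Divisor.degree (poleDiv (S c).hFk ((S c).red x)) =
      ∑ cl, ∑ c ∈ VP cl, Divisor.degree (poleDiv (S c).hFk ((S c).red x)) :=
    Finset.sum_biUnion hdP
  have hd1 : Disjoint V₁ (Finset.univ.biUnion VP) := by
    rw [Finset.disjoint_biUnion_right]
    exact fun cl _ => h1P cl
  have hd2 : Disjoint V₂ (Finset.univ.biUnion VP) := by
    rw [Finset.disjoint_biUnion_right]
    exact fun cl _ => h2P cl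
  have hd12 : Disjoint (V₁ ∪ V₂) (Finset.univ.biUnion VP) := by
    rw [Finset.disjoint_union_left]
    exact ⟨hd1, hd2⟩
  have hsub : (V₁ ∪ V₂) ∪ Finset.univ.biUnion VP ⊆ Finset.univ := Finset.subset_univ _
  have hle := Finset.sum_le_sum_of_subset_of_nonneg hsub
    (f := fun c => Divisor.degree (poleDiv (S c).hFk ((S c).red x))) (fun c _ _ => hnn c)
  rw [Finset.sum_union hd12, Finset.sum_union h12, hU] at hle
  have hsumP := Finset.sum_le_sum (s := Finset.univ) (fun cl _ => eP cl)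
  linarith

/-- **SEED-DEG**, abstract form: the hypothesis `hdeg` of the graph seed attached to
`x = u + ϖ / u + ∑ y cl`. -/
theorem sdeg_hdeg [DecidableEq κ] (hF : IsRRField K F) {Cl : Type*} [Fintype Cl] [DecidableEq Cl]
    (u : F) (ϖ : K) (y : Cl → F)
    (hu : Transcendental K u) [FiniteDimensional K⟮u⟯ F] (hϖ : ϖ ≠ 0)
    (hy : ∀ cl, Transcendental K (y cl)) (hyfin : ∀ cl, FiniteDimensional K⟮y cl⟯ F)
    (V₁ V₂ : Finset κ) (VP : Cl → Finset κ)
    (h12 : Disjoint V₁ V₂) (h1P : ∀ cl, Disjoint V₁ (VP cl)) (h2P : ∀ cl, Disjoint V₂ (VP cl))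
    (hPP : ∀ cl cl', cl ≠ cl' → Disjoint (VP cl) (VP cl'))
    (hr₁ : ∀ c ∈ V₁, (S c).red (u + algebraMap K F ϖ / u + ∑ cl, y cl) = (S c).red u)
    (hr₂ : ∀ c ∈ V₂, (S c).red (u + algebraMap K F ϖ / u + ∑ cl, y cl) =
      (S c).red (algebraMap K F ϖ / u))
    (hrP : ∀ cl, ∀ c ∈ VP cl, (S c).red (u + algebraMap K F ϖ / u + ∑ cl, y cl) =
      (S c).red (y cl))
    (htr₁ : ∀ c ∈ V₁, Transcendental k ((S c).red u))
    (htr₂ : ∀ c ∈ V₂, Transcendental k ((S c).red (algebraMap K F ϖ / u)))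
    (htrP : ∀ cl, ∀ c ∈ VP cl, Transcendental k ((S c).red (y cl)))
    (deg₁ : Module.finrank K⟮u⟯ F ≤ ∑ c ∈ V₁, Module.finrank k⟮(S c).red u⟯ (Fk c))
    (deg₂ : Module.finrank K⟮u⟯ F ≤
      ∑ c ∈ V₂, Module.finrank k⟮(S c).red (algebraMap K F ϖ / u)⟯ (Fk c))
    (degP : ∀ cl, Module.finrank K⟮y cl⟯ F ≤
      ∑ c ∈ VP cl, Module.finrank k⟮(S c).red (y cl)⟯ (Fk c)) :
    Divisor.degree (poleDiv hF (u + algebraMap K F ϖ / u + ∑ cl, y cl)) ≤
      ∑ c, Divisor.degree (poleDiv (S c).hFk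
        ((S c).red (u + algebraMap K F ϖ / u + ∑ cl, y cl))) := by
  refine (sdeg_degree_le hF hu hϖ y).trans ?_
  have hdy : ∀ cl, Divisor.degree (poleDiv hF (y cl)) = (Module.finrank K⟮y cl⟯ F : ℤ) :=
    fun cl => by
      have := hyfin cl
      exact Fermat.Agent.RRHur.degree_poleDiv_eq_finrank hF (hy cl)
  exact sdeg_le_sum S _ u ϖ y (fun cl => Divisor.degree (poleDiv hF (y cl))) V₁ V₂ VP h12 h1P h2P
    hPP hr₁ hr₂ hrP htr₁ htr₂ htrP deg₁ deg₂
    (fun cl => by rw [hdy cl]; exact_mod_cast degP cl)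

end Family

end Fermat.Agent.S36G
end
end MergeWrap_S36_Seed_Deg
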