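import Mathlib
import Fermat.Agent.MUL.S36.G.SeedInst
import Fermat.Agent.MUL.S36.Seed.Deg
import Fermat.Agent.MUL.Lib.Deuring.Basic
import Fermat.Agent.MUL.Lib.GoodRed.Small.GenusZero
import Fermat.Agent.MUL.Orig.S36.Seed.YDefs
import Fermat.Agent.MUL.S36.G.SeedInput
import Fermat.Agent.MUL.Lib.BadRed.PeuD.RepM

section MergeWrap_S36_Seed_Pos -- from S36/Seed/Pos.lean

set_option autoImplicit false
set_option linter.unusedSectionVars false

/-!
# Cluster G (S36), seat SEED-POS (helper7): `hx`, `hpos`, `hn₁`, `hn₂` of the modular seed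

Seed function `x = u + ϖ / u + ∑_cl y cl` (for the modular graph: `u = u₁`, `ϖ = q ^ 12`, `y` the
lifted function(s) of the horizontal components).

## Generic part (any family `S c` of constant reductions)

* `spos_red_sum`, `spos_mem` : `red_c` of a finite sum; `x ∈ O_c`;
* `spos_red_eq_u`, `spos_red_eq_u'`, `spos_red_eq_y` : `red_c x` is the reduction of the ONE
  summand which does not reduce to `0`;
* `spos_degree_pos` : `0 < deg (red_c x)_∞` as soon as `red_c x` is transcendental.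

## Modular part (`κ = Vtx Mid SS`)

`SeedFunData S pv PJ cls u ϖ y` : what the modular side has to provide about the three kinds of
summands (membership, vanishing reductions, transcendence, regularity at the supersingular points
`pv P v` and at the ends `PJ`).  Then

* `SeedFunData.mem`, `.red_vert`, `.red_zero`, `.red_hor` : `x ∈ ⋂ O_c` and the reductions of `x`;
* `SeedFunData.hpos`, `.hn₁`, `.hn₂` : the three hypotheses of `ModMatchInput.seed`;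
* `sposV₁`, `sposV₂`, `sposVP` + `SeedFunData.hr₁ / hr₂ / hrP / htr₁ / htr₂ / htrP` and the
  disjointness lemmas: the hypotheses of `sdeg_hdeg` (SEED-DEG) which do not involve degrees;
* `SeedFunData.hdeg` : `hdeg` from the three degree inequalities.
-/

noncomputable section

open AlgebraicCurve Fermat.Agent.RR Fermat.Agent.Deuring IntermediateField

namespace Fermat.Agent.S36G

open Fermat.Agent.BadRed Fermat.Agent.BadRedG

/-! ### Generic part -/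

section Generic

variable {K F k Fk : Type*} [Field K] [Field F] [Algebra K F] [Field k] [Field Fk] [Algebra k Fk]
  (S : ValSetup K F k Fk)

/-- the reduction of a finite sum of integral elements. -/
theorem spos_red_sum {J : Type*} (s : Finset J) (f : J → F) (hf : ∀ j ∈ s, f j ∈ S.Ov) :
    (∑ j ∈ s, f j) ∈ S.Ov ∧ S.red (∑ j ∈ s, f j) = ∑ j ∈ s, S.red (f j) := by
  classical
  induction s using Finset.induction_on with
  | empty =>
    rw [Finset.sum_empty, Finset.sum_empty]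
    exact ⟨S.Ov.zero_mem, S.red_zero⟩
  | insert a s ha ih =>
    have h1 := ih fun j hj => hf j (Finset.mem_insert_of_mem hj)
    have h2 := hf a (Finset.mem_insert_self a s)
    rw [Finset.sum_insert ha, Finset.sum_insert ha]
    exact ⟨add_mem h2 h1.1, by rw [S.red_add h2 h1.1, h1.2]⟩

variable {Cl : Type*} [Fintype Cl] {u : F} {ϖ : K} {y : Cl → F}

/-- the seed function is integral. -/
theorem spos_mem (hu : u ∈ S.Ov) (hu' : algebraMap K F ϖ / u ∈ S.Ov) (hy : ∀ cl, y cl ∈ S.Ov) :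
    u + algebraMap K F ϖ / u + ∑ cl, y cl ∈ S.Ov :=
  add_mem (add_mem hu hu') (spos_red_sum S Finset.univ y fun cl _ => hy cl).1

/-- the reduction of the seed function, all summands. -/
theorem spos_red (hu : u ∈ S.Ov) (hu' : algebraMap K F ϖ / u ∈ S.Ov) (hy : ∀ cl, y cl ∈ S.Ov) :
    S.red (u + algebraMap K F ϖ / u + ∑ cl, y cl) =
      S.red u + S.red (algebraMap K F ϖ / u) + ∑ cl, S.red (y cl) := by
  have h1 := spos_red_sum S Finset.univ y fun cl _ => hy cl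
  rw [S.red_add (add_mem hu hu') h1.1, S.red_add hu hu', h1.2]

/-- on a component where `ϖ / u` and the `y cl` reduce to `0`: `red x = red u`. -/
theorem spos_red_eq_u (hu : u ∈ S.Ov) (hu' : algebraMap K F ϖ / u ∈ S.Ov)
    (hy : ∀ cl, y cl ∈ S.Ov) (h0 : S.red (algebraMap K F ϖ / u) = 0)
    (hy0 : ∀ cl, S.red (y cl) = 0) :
    S.red (u + algebraMap K F ϖ / u + ∑ cl, y cl) = S.red u := by
  rw [spos_red S hu hu' hy, h0, Finset.sum_eq_zero fun cl _ => hy0 cl, add_zero, add_zero]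

/-- on a component where `u` and the `y cl` reduce to `0`: `red x = red (ϖ / u)`. -/
theorem spos_red_eq_u' (hu : u ∈ S.Ov) (hu' : algebraMap K F ϖ / u ∈ S.Ov)
    (hy : ∀ cl, y cl ∈ S.Ov) (h0 : S.red u = 0) (hy0 : ∀ cl, S.red (y cl) = 0) :
    S.red (u + algebraMap K F ϖ / u + ∑ cl, y cl) = S.red (algebraMap K F ϖ / u) := by
  rw [spos_red S hu hu' hy, h0, Finset.sum_eq_zero fun cl _ => hy0 cl, add_zero, zero_add]

/-- on a component where `u`, `ϖ / u` and the `y cl'`, `cl' ≠ cl`, reduce to `0`: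
`red x = red (y cl)`. -/
theorem spos_red_eq_y (hu : u ∈ S.Ov) (hu' : algebraMap K F ϖ / u ∈ S.Ov)
    (hy : ∀ cl, y cl ∈ S.Ov) (h0 : S.red u = 0) (h0' : S.red (algebraMap K F ϖ / u) = 0)
    (cl : Cl) (hy0 : ∀ cl', cl' ≠ cl → S.red (y cl') = 0) :
    S.red (u + algebraMap K F ϖ / u + ∑ cl, y cl) = S.red (y cl) := by
  classical
  rw [spos_red S hu hu' hy, h0, h0', add_zero, zero_add,
    Finset.sum_eq_single cl (fun cl' _ hne => hy0 cl' hne)
      (fun h => absurd (Finset.mem_univ cl) h)]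

/-- a transcendental function has a pole. -/
theorem spos_degree_pos {f : Fk} (hf : Transcendental k f) :
    0 < Divisor.degree (poleDiv S.hFk f) :=
  Fermat.Agent.RRHur.degree_poleDiv_pos S.hFk hf

end Generic

/-! ### Modular part -/

section Mod

variable {K F k : Type} [Field K] [Field F] [Algebra K F] [Field k]
  {Mid SS : Type} [Fintype Mid] [Fintype SS]
  {Fk0 : Type} [Field Fk0] [Algebra k Fk0]
  {FkM : Mid → Type} [∀ m, Field (FkM m)] [∀ m, Algebra k (FkM m)]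
  {FkP : SS → Type} [∀ P, Field (FkP P)] [∀ P, Algebra k (FkP P)]
  {Cl : Type} [Fintype Cl]

/-- **What the modular side has to provide about the seed function**
`x = u + ϖ / u + ∑_cl y cl` on the modular graph:

* all summands are integral for all components;
* `ϖ / u` and the `y cl` reduce to `0` on `∞` and the middle components, `u` and the `y cl` reduce
  to `0` on the component `0`, `u`, `ϖ / u` and the `y cl`, `cl ≠ cls P`, reduce to `0` on `H_P`;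
* the remaining reductions are transcendental;
* `red_v u` (`v = ∞, mid m`) resp. `red_0 (ϖ / u)` are regular at the supersingular points
  `pv P v`, and the ends `PJ` lie on horizontal components, where `red (y (cls P))` is regular. -/
structure SeedFunData (S : ∀ c : Vtx Mid SS, ValSetup K F k (FkOf Fk0 FkM FkP c))
    (pv : ∀ (_ : SS) (v : Vrt Mid), Place k (FkOf Fk0 FkM FkP (Vtx.vert v)))
    (PJ : Set (Σ c, Place k (FkOf Fk0 FkM FkP c))) (cls : SS → Cl)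
    (u : F) (ϖ : K) (y : Cl → F) : Prop where
  u_mem : ∀ c, u ∈ (S c).Ov
  u'_mem : ∀ c, algebraMap K F ϖ / u ∈ (S c).Ov
  y_mem : ∀ c cl, y cl ∈ (S c).Ov
  red_u'_vert : ∀ v : Vrt Mid, v ≠ Vrt.zero →
    (S (Vtx.vert v)).red (algebraMap K F ϖ / u) = 0
  red_u_zero : (S (Vtx.vert Vrt.zero)).red u = 0
  red_y_vert : ∀ (v : Vrt Mid) cl, (S (Vtx.vert v)).red (y cl) = 0
  red_u_hor : ∀ P : SS, (S (Vtx.hor P)).red u = 0
  red_u'_hor : ∀ P : SS, (S (Vtx.hor P)).red (algebraMap K F ϖ / u) = 0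
  red_y_hor : ∀ (P : SS) cl, cl ≠ cls P → (S (Vtx.hor P)).red (y cl) = 0
  tr_u : ∀ v : Vrt Mid, v ≠ Vrt.zero → Transcendental k ((S (Vtx.vert v)).red u)
  tr_u' : Transcendental k ((S (Vtx.vert Vrt.zero)).red (algebraMap K F ϖ / u))
  tr_y : ∀ P : SS, Transcendental k ((S (Vtx.hor P)).red (y (cls P)))
  ord_u : ∀ (P : SS) (v : Vrt Mid), v ≠ Vrt.zero → 0 ≤ (pv P v).ord ((S (Vtx.vert v)).red u)
  ord_u' : ∀ P : SS,
    0 ≤ (pv P Vrt.zero).ord ((S (Vtx.vert Vrt.zero)).red (algebraMap K F ϖ / u))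
  end_hor : ∀ p : Σ c, Place k (FkOf Fk0 FkM FkP c), p ∈ PJ → ∃ P : SS, p.1 = Vtx.hor P
  ord_y : ∀ (P : SS) (Q : Place k (FkOf Fk0 FkM FkP (Vtx.hor P))),
    (⟨Vtx.hor P, Q⟩ : Σ c, Place k (FkOf Fk0 FkM FkP c)) ∈ PJ →
      0 ≤ Q.ord ((S (Vtx.hor P)).red (y (cls P)))

namespace SeedFunData

variable {S : ∀ c : Vtx Mid SS, ValSetup K F k (FkOf Fk0 FkM FkP c)}
  {pv : ∀ (_ : SS) (v : Vrt Mid), Place k (FkOf Fk0 FkM FkP (Vtx.vert v))}
  {PJ : Set (Σ c, Place k (FkOf Fk0 FkM FkP c))} {cls : SS → Cl}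
  {u : F} {ϖ : K} {y : Cl → F}

/-- `x ∈ ⋂_c O_c`. -/
theorem mem (D : SeedFunData S pv PJ cls u ϖ y) (c : Vtx Mid SS) : u + algebraMap K F ϖ / u + ∑ cl, y cl ∈ (S c).Ov :=
  spos_mem (S c) (D.u_mem c) (D.u'_mem c) (D.y_mem c)

/-- on `∞` and the middle components: `red x = red u`. -/
theorem red_vert (D : SeedFunData S pv PJ cls u ϖ y) (v : Vrt Mid) (hv : v ≠ Vrt.zero) :
    (S (Vtx.vert v)).red (u + algebraMap K F ϖ / u + ∑ cl, y cl) = (S (Vtx.vert v)).red u :=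
  spos_red_eq_u (S (Vtx.vert v)) (D.u_mem _) (D.u'_mem _) (D.y_mem _) (D.red_u'_vert v hv)
    (D.red_y_vert v)

/-- on the component `0`: `red x = red (ϖ / u)`. -/
theorem red_zero (D : SeedFunData S pv PJ cls u ϖ y) :
    (S (Vtx.vert Vrt.zero)).red (u + algebraMap K F ϖ / u + ∑ cl, y cl) =
      (S (Vtx.vert Vrt.zero)).red (algebraMap K F ϖ / u) :=
  spos_red_eq_u' (S (Vtx.vert Vrt.zero)) (D.u_mem _) (D.u'_mem _) (D.y_mem _) D.red_u_zero
    (D.red_y_vert Vrt.zero)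

/-- on `H_P`: `red x = red (y (cls P))`. -/
theorem red_hor (D : SeedFunData S pv PJ cls u ϖ y) (P : SS) :
    (S (Vtx.hor P)).red (u + algebraMap K F ϖ / u + ∑ cl, y cl) =
      (S (Vtx.hor P)).red (y (cls P)) :=
  spos_red_eq_y (S (Vtx.hor P)) (D.u_mem _) (D.u'_mem _) (D.y_mem _) (D.red_u_hor P)
    (D.red_u'_hor P) (cls P) (D.red_y_hor P)

/-- the reduction of the seed function is transcendental on every component. -/
theorem transcendental_red (D : SeedFunData S pv PJ cls u ϖ y) (c : Vtx Mid SS) :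
    Transcendental k ((S c).red (u + algebraMap K F ϖ / u + ∑ cl, y cl)) := by
  cases c with
  | vert v =>
    by_cases hv : v = Vrt.zero
    · subst hv
      rw [D.red_zero]
      exact D.tr_u'
    · rw [D.red_vert v hv]
      exact D.tr_u v hv
  | hor P =>
    rw [D.red_hor P]
    exact D.tr_y P

/-- **`hpos`** of `ModMatchInput.seed`. -/
theorem hpos (D : SeedFunData S pv PJ cls u ϖ y) (c : Vtx Mid SS) :
    0 < Divisor.degree (poleDiv (S c).hFk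
      ((S c).red (u + algebraMap K F ϖ / u + ∑ cl, y cl))) :=
  spos_degree_pos (S c) (D.transcendental_red c)

/-- **`hn₁`** of `ModMatchInput.seed`: the reductions of the seed function are regular at the
supersingular points of the vertical components. -/
theorem hn₁ (D : SeedFunData S pv PJ cls u ϖ y) (P : SS) (v : Vrt Mid) :
    0 ≤ (pv P v).ord ((S (Vtx.vert v)).red (u + algebraMap K F ϖ / u + ∑ cl, y cl)) := by
  by_cases hv : v = Vrt.zero
  · subst hv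
    rw [D.red_zero]
    exact D.ord_u' P
  · rw [D.red_vert v hv]
    exact D.ord_u P v hv

/-- **`hn₂`** of `ModMatchInput.seed`: the reductions of the seed function are regular at the
ends of the horizontal components. -/
theorem hn₂ (D : SeedFunData S pv PJ cls u ϖ y) (p : Σ c, Place k (FkOf Fk0 FkM FkP c))
    (hp : p ∈ PJ) :
    0 ≤ p.2.ord ((S p.1).red (u + algebraMap K F ϖ / u + ∑ cl, y cl)) := by
  obtain ⟨c, Q⟩ := p
  obtain ⟨P, hP⟩ := D.end_hor ⟨c, Q⟩ hp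
  have hc : c = Vtx.hor P := hP
  subst hc
  show 0 ≤ Q.ord ((S (Vtx.hor P)).red (u + algebraMap K F ϖ / u + ∑ cl, y cl))
  rw [D.red_hor P]
  exact D.ord_y P Q hp

end SeedFunData

/-! ### The three sets of components of SEED-DEG -/

section Sets

variable (Mid SS)

open Classical in
/-- `V₁`: `∞` and the middle components. -/
def sposV₁ : Finset (Vtx Mid SS) :=
  Finset.univ.filter fun c => ∃ v : Vrt Mid, v ≠ Vrt.zero ∧ c = Vtx.vert v

/-- `V₂`: the component `0`. -/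
def sposV₂ : Finset (Vtx Mid SS) := {Vtx.vert Vrt.zero}

variable {SS}

open Classical in
/-- `VP cl`: the horizontal components `H_P`, `cls P = cl`. -/
def sposVP (cls : SS → Cl) (cl : Cl) : Finset (Vtx Mid SS) :=
  Finset.univ.filter fun c => ∃ P : SS, cls P = cl ∧ c = Vtx.hor P

variable {Mid}

theorem mem_sposV₁ {c : Vtx Mid SS} :
    c ∈ sposV₁ Mid SS ↔ ∃ v : Vrt Mid, v ≠ Vrt.zero ∧ c = Vtx.vert v := by
  classical
  simp [sposV₁]

theorem mem_sposV₂ {c : Vtx Mid SS} : c ∈ sposV₂ Mid SS ↔ c = Vtx.vert Vrt.zero := by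
  simp [sposV₂]

theorem mem_sposVP {cls : SS → Cl} {cl : Cl} {c : Vtx Mid SS} :
    c ∈ sposVP Mid cls cl ↔ ∃ P : SS, cls P = cl ∧ c = Vtx.hor P := by
  classical
  simp [sposVP]

theorem spos_disjoint₁₂ : Disjoint (sposV₁ Mid SS) (sposV₂ Mid SS) := by
  rw [Finset.disjoint_left]
  intro c h1 h2
  obtain ⟨v, hv, rfl⟩ := mem_sposV₁.mp h1
  have := mem_sposV₂.mp h2
  exact hv (Vtx.vert.inj this)

theorem spos_disjoint₁P (cls : SS → Cl) (cl : Cl) :
    Disjoint (sposV₁ Mid SS) (sposVP Mid cls cl) := by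
  rw [Finset.disjoint_left]
  intro c h1 h2
  obtain ⟨v, _, rfl⟩ := mem_sposV₁.mp h1
  obtain ⟨P, _, hP⟩ := mem_sposVP.mp h2
  cases hP

theorem spos_disjoint₂P (cls : SS → Cl) (cl : Cl) :
    Disjoint (sposV₂ Mid SS) (sposVP Mid cls cl) := by
  rw [Finset.disjoint_left]
  intro c h1 h2
  have h := mem_sposV₂.mp h1
  subst h
  obtain ⟨P, _, hP⟩ := mem_sposVP.mp h2
  cases hP

theorem spos_disjointPP (cls : SS → Cl) (cl cl' : Cl) (h : cl ≠ cl') :
    Disjoint (sposVP Mid cls cl) (sposVP Mid cls cl') := by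
  rw [Finset.disjoint_left]
  intro c h1 h2
  obtain ⟨P, hP, rfl⟩ := mem_sposVP.mp h1
  obtain ⟨P', hP', hPP⟩ := mem_sposVP.mp h2
  have : P = P' := Vtx.hor.inj hPP
  subst this
  exact h (hP.symm.trans hP')

end Sets

namespace SeedFunData

variable {S : ∀ c : Vtx Mid SS, ValSetup K F k (FkOf Fk0 FkM FkP c)}
  {pv : ∀ (_ : SS) (v : Vrt Mid), Place k (FkOf Fk0 FkM FkP (Vtx.vert v))}
  {PJ : Set (Σ c, Place k (FkOf Fk0 FkM FkP c))} {cls : SS → Cl}
  {u : F} {ϖ : K} {y : Cl → F}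

theorem hr₁ (D : SeedFunData S pv PJ cls u ϖ y) (c : Vtx Mid SS) (hc : c ∈ sposV₁ Mid SS) :
    (S c).red (u + algebraMap K F ϖ / u + ∑ cl, y cl) = (S c).red u := by
  obtain ⟨v, hv, rfl⟩ := mem_sposV₁.mp hc
  exact D.red_vert v hv

theorem hr₂ (D : SeedFunData S pv PJ cls u ϖ y) (c : Vtx Mid SS) (hc : c ∈ sposV₂ Mid SS) :
    (S c).red (u + algebraMap K F ϖ / u + ∑ cl, y cl) = (S c).red (algebraMap K F ϖ / u) := by
  have h := mem_sposV₂.mp hc
  subst h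
  exact D.red_zero

theorem hrP (D : SeedFunData S pv PJ cls u ϖ y) (cl : Cl) (c : Vtx Mid SS) (hc : c ∈ sposVP Mid cls cl) :
    (S c).red (u + algebraMap K F ϖ / u + ∑ cl, y cl) = (S c).red (y cl) := by
  obtain ⟨P, hP, rfl⟩ := mem_sposVP.mp hc
  rw [D.red_hor P, hP]

theorem htr₁ (D : SeedFunData S pv PJ cls u ϖ y) (c : Vtx Mid SS) (hc : c ∈ sposV₁ Mid SS) :
    Transcendental k ((S c).red u) := by
  obtain ⟨v, hv, rfl⟩ := mem_sposV₁.mp hc
  exact D.tr_u v hv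

theorem htr₂ (D : SeedFunData S pv PJ cls u ϖ y) (c : Vtx Mid SS) (hc : c ∈ sposV₂ Mid SS) :
    Transcendental k ((S c).red (algebraMap K F ϖ / u)) := by
  have h := mem_sposV₂.mp hc
  subst h
  exact D.tr_u'

theorem htrP (D : SeedFunData S pv PJ cls u ϖ y) (cl : Cl) (c : Vtx Mid SS) (hc : c ∈ sposVP Mid cls cl) :
    Transcendental k ((S c).red (y cl)) := by
  obtain ⟨P, hP, rfl⟩ := mem_sposVP.mp hc
  have := D.tr_y P
  rwa [hP] at this

/-- **`hdeg`** of `ModMatchInput.seed` from the three degree inequalities (SEED-DEG,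
`sdeg_hdeg`). -/
theorem hdeg (D : SeedFunData S pv PJ cls u ϖ y) (hF : IsRRField K F)
    (hu : Transcendental K u) [FiniteDimensional K⟮u⟯ F] (hϖ : ϖ ≠ 0)
    (hy : ∀ cl, Transcendental K (y cl)) (hyfin : ∀ cl, FiniteDimensional K⟮y cl⟯ F)
    (deg₁ : Module.finrank K⟮u⟯ F ≤
      ∑ c ∈ sposV₁ Mid SS, Module.finrank k⟮(S c).red u⟯ (FkOf Fk0 FkM FkP c))
    (deg₂ : Module.finrank K⟮u⟯ F ≤
      ∑ c ∈ sposV₂ Mid SS,
        Module.finrank k⟮(S c).red (algebraMap K F ϖ / u)⟯ (FkOf Fk0 FkM FkP c))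
    (degP : ∀ cl, Module.finrank K⟮y cl⟯ F ≤
      ∑ c ∈ sposVP Mid cls cl, Module.finrank k⟮(S c).red (y cl)⟯ (FkOf Fk0 FkM FkP c)) :
    Divisor.degree (poleDiv hF (u + algebraMap K F ϖ / u + ∑ cl, y cl)) ≤
      ∑ c, Divisor.degree (poleDiv (S c).hFk
        ((S c).red (u + algebraMap K F ϖ / u + ∑ cl, y cl))) := by
  classical
  exact sdeg_hdeg S hF u ϖ y hu hϖ hy hyfin (sposV₁ Mid SS) (sposV₂ Mid SS) (sposVP Mid cls)
    spos_disjoint₁₂ (spos_disjoint₁P cls) (spos_disjoint₂P cls) (spos_disjointPP cls)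
    D.hr₁ D.hr₂ D.hrP D.htr₁ D.htr₂ D.htrP deg₁ deg₂ degP

end SeedFunData

/-! ### The seed of a `ModMatchInput` -/

namespace ModMatchInput

variable (I : ModMatchInput K F k Mid SS Fk0 FkM FkP) [Infinite k] [Nonempty SS]
  {cls : SS → Cl} {u : F} {ϖ : K} {y : Cl → F}

/-- **The modular `GraphSeed`** attached to the seed function `x = u + ϖ / u + ∑ y cl`, from
`SeedFunData` (SEED-POS), `hdeg` (SEED-DEG) and the genus inequality (GENUS). -/
def seedOfData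
    (D : SeedFunData I.S I.pv {p | p ∈ I.PJA ∨ p ∈ I.PJM ∨ p ∈ I.PJ2} cls u ϖ y)
    (hD₀ : I.D₀ = poleDiv (I.S (Vtx.vert Vrt.oo)).hF (u + algebraMap K F ϖ / u + ∑ cl, y cl))
    (hdeg : Divisor.degree (poleDiv (I.S (Vtx.vert Vrt.oo)).hF
        (u + algebraMap K F ϖ / u + ∑ cl, y cl)) ≤
      ∑ c, Divisor.degree (poleDiv (I.S c).hFk
        ((I.S c).red (u + algebraMap K F ϖ / u + ∑ cl, y cl))))
    (hgenus : genusFF K F + Fintype.card (Vtx Mid SS) ≤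
      (∑ c, genusFF k (FkOf Fk0 FkM FkP c)) + Fintype.card (Nod Mid SS) + 1) :
    GraphSeed K F k (Vtx Mid SS) (FkOf Fk0 FkM FkP) (Nod Mid SS) :=
  I.seed (u + algebraMap K F ϖ / u + ∑ cl, y cl) D.mem hD₀ D.hpos D.hn₁
    (fun p hp => D.hn₂ p hp) hdeg hgenus

end ModMatchInput

end Mod

end Fermat.Agent.S36G
end
end MergeWrap_S36_Seed_Pos

section MergeWrap_S36_Seed_YMod -- from S36/Seed/YMod.lean

set_option autoImplicit false
set_option linter.unusedSectionVars false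

/-!
# Cluster G (S36), SEED v3: the seed term `y = b u^n / (u^n - b)^2` under ONE constant reduction
(helper74)

`S : ValSetup K F k Fk`, `u : F`, `b : K`.  With `T = b / u^n` resp. `T' = u^n / b`:
`y = T / (1 - T)^2 = T' / (1 - T')^2`.

* `ymodY_eq_T`, `ymodY_eq_T'` : the two forms of `y`;
* `ymod_red_frac`   : `T ∈ O`, `red T ≠ 1` ⟹ `T / (1 - T)^2 ∈ O` and its reduction;
* `ymod_const_div_unit`, `ymod_unit` : **(A)** `u` a unit of `O`, `ϖ, b ∈ 𝔪_A` ⟹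
  `ϖ / u, y ∈ 𝔪_O`   (the components `∞`, `mid m`);
* `ymod_u_of_inv`, `ymod_zero` : **(B)** `ϖ / u` a unit of `O`, `ϖ ∈ 𝔪_A`, `ϖ^n = c b`, `c ∈ 𝔪_A`
  ⟹ `u, y ∈ 𝔪_O`     (the component `0`);
* `ymod_hor` : **(C)** `W = ϖ₁ / u` a unit of `O` with transcendental reduction, `b = e ϖ₁^n`,
  `e` a unit of `A` ⟹ `y ∈ O`, `red y = T̄ / (1 - T̄)^2`, `T̄ = ē W̄^n`   (the components `H_P`);
  `ymod_hor_u`, `ymod_hor_u'` : `u, ϖ / u ∈ 𝔪_O` there (`ϖ = ϖ₁ ϖ₂`, `ϖ₂ ∈ 𝔪_A`);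
* `ymod_frac_transcendental` : `T̄` transcendental ⟹ `T̄ / (1 - T̄)^2` transcendental;
* `ymod_frac_ord` : `ord_Q (T̄ / (1 - T̄)^2) = |ord_Q T̄|` if `ord_Q T̄ ≠ 0`;
* `ymod_hor_transcendental`, `ymod_hor_ord_pos` : `red y` is transcendental and vanishes at every
  zero and every pole of `W̄` (= at all the ends of `H_P`).
-/

noncomputable section

open AlgebraicCurve Fermat.Agent.RR Fermat.Agent.Deuring IntermediateField

namespace Fermat.Agent.S36G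

/-! ### the two forms of `y` -/

section Alg

variable {K F : Type*} [Field K] [Field F] [Algebra K F]

/-- `y = T / (1 - T)^2`, `T = b / u^n`. -/
theorem ymodY_eq_T (u : F) (b : K) (n : ℕ) (hu : u ≠ 0) :
    ymodY u b n = (algebraMap K F b / u ^ n) / (1 - algebraMap K F b / u ^ n) ^ 2 := by
  have h : u ^ n ≠ 0 := pow_ne_zero n hu
  by_cases hw : u ^ n - algebraMap K F b = 0
  · have h1 : algebraMap K F b / u ^ n = 1 := by
      rw [div_eq_one_iff_eq h]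
      exact (sub_eq_zero.mp hw).symm
    rw [ymodY_def, hw, h1]
    simp
  · have h1 : 1 - algebraMap K F b / u ^ n = (u ^ n - algebraMap K F b) / u ^ n := by
      field_simp
    rw [ymodY_def, h1]
    field_simp

/-- `y = T' / (1 - T')^2`, `T' = u^n / b`. -/
theorem ymodY_eq_T' (u : F) (b : K) (n : ℕ) (hb : b ≠ 0) :
    ymodY u b n = (u ^ n / algebraMap K F b) / (1 - u ^ n / algebraMap K F b) ^ 2 := by
  have h : algebraMap K F b ≠ 0 := (_root_.map_ne_zero _).mpr hb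
  by_cases hw : u ^ n - algebraMap K F b = 0
  · have h1 : u ^ n / algebraMap K F b = 1 := by
      rw [div_eq_one_iff_eq h]
      exact sub_eq_zero.mp hw
    rw [ymodY_def, hw, h1]
    simp
  · have h1 : 1 - u ^ n / algebraMap K F b = -((u ^ n - algebraMap K F b) / algebraMap K F b) := by
      field_simp
      ring
    rw [ymodY_def, h1, neg_sq]
    field_simp

end Alg

/-! ### one constant reduction -/

section One

variable {K F k Fk : Type*} [Field K] [Field F] [Algebra K F] [Field k] [Field Fk] [Algebra k Fk]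
  (S : ValSetup K F k Fk)

/-- `T ∈ O`, `red T ≠ 1` ⟹ `T / (1 - T)^2 ∈ O`, with reduction `T̄ / (1 - T̄)^2`. -/
theorem ymod_red_frac {T : F} (hT : T ∈ S.Ov) (h1 : S.red T ≠ 1) :
    T / (1 - T) ^ 2 ∈ S.Ov ∧ S.red (T / (1 - T) ^ 2) = S.red T / (1 - S.red T) ^ 2 := by
  have h1T : (1 - T) ∈ S.Ov := sub_mem (one_mem _) hT
  have hr : S.red (1 - T) = 1 - S.red T := by rw [S.red_sub (one_mem _) hT, S.red_one]
  have hne : S.red (1 - T) ≠ 0 := by
    rw [hr]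
    exact sub_ne_zero.mpr (Ne.symm h1)
  have hinv := S.inv_mem_of_red_ne_zero hne
  have h0 := S.ne_zero_of_red_ne_zero hne
  have hri := S.red_inv h1T hinv h0
  have e : T / (1 - T) ^ 2 = T * ((1 - T)⁻¹) ^ 2 := by rw [div_eq_mul_inv, inv_pow]
  rw [e]
  refine ⟨mul_mem hT (pow_mem hinv 2), ?_⟩
  rw [S.red_mul hT (pow_mem hinv 2), S.red_pow hinv, hri, hr, div_eq_mul_inv, inv_pow]

/-- `T ∈ 𝔪_O` ⟹ `T / (1 - T)^2 ∈ 𝔪_O`. -/
theorem ymod_red_frac_zero {T : F} (hT : T ∈ S.Ov) (h0 : S.red T = 0) :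
    T / (1 - T) ^ 2 ∈ S.Ov ∧ S.red (T / (1 - T) ^ 2) = 0 := by
  have h := ymod_red_frac S hT (by rw [h0]; exact zero_ne_one)
  refine ⟨h.1, ?_⟩
  rw [h.2, h0, zero_div]

/-- a constant of `𝔪_A` times an element of `O` lies in `𝔪_O`. -/
theorem ymod_const_mul {c : K} (hc : c ∈ S.A) (hc0 : S.res ⟨c, hc⟩ = 0) {f : F} (hf : f ∈ S.Ov) :
    algebraMap K F c * f ∈ S.Ov ∧ S.red (algebraMap K F c * f) = 0 := by
  refine ⟨mul_mem (S.algebraMap_mem hc) hf, ?_⟩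
  rw [S.red_mul (S.algebraMap_mem hc) hf, S.red_algebraMap hc, hc0, map_zero, zero_mul]

/-- **(A)** `u` a unit of `O`, `ϖ ∈ 𝔪_A` ⟹ `ϖ / u ∈ 𝔪_O`. -/
theorem ymod_const_div_unit {u : F} {ϖ : K} (hur : S.red u ≠ 0) (hϖ : ϖ ∈ S.A)
    (hϖ0 : S.res ⟨ϖ, hϖ⟩ = 0) :
    algebraMap K F ϖ / u ∈ S.Ov ∧ S.red (algebraMap K F ϖ / u) = 0 := by
  rw [div_eq_mul_inv]
  exact ymod_const_mul S hϖ hϖ0 (S.inv_mem_of_red_ne_zero hur)

/-- **(A)** `u` a unit of `O`, `b ∈ 𝔪_A` ⟹ `y ∈ 𝔪_O`. -/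
theorem ymod_unit {u : F} {b : K} (n : ℕ) (hur : S.red u ≠ 0) (hb : b ∈ S.A)
    (hb0 : S.res ⟨b, hb⟩ = 0) :
    ymodY u b n ∈ S.Ov ∧ S.red (ymodY u b n) = 0 := by
  have hu0 : u ≠ 0 := S.ne_zero_of_red_ne_zero hur
  rw [ymodY_eq_T u b n hu0]
  have hT : algebraMap K F b / u ^ n ∈ S.Ov ∧ S.red (algebraMap K F b / u ^ n) = 0 := by
    rw [div_eq_mul_inv, ← inv_pow]
    exact ymod_const_mul S hb hb0 (pow_mem (S.inv_mem_of_red_ne_zero hur) n)
  exact ymod_red_frac_zero S hT.1 hT.2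

/-- **(B)** `ϖ / u` a unit of `O`, `ϖ ∈ 𝔪_A` ⟹ `u ∈ 𝔪_O`. -/
theorem ymod_u_of_inv {u : F} {ϖ : K} (hur : S.red (algebraMap K F ϖ / u) ≠ 0) (hϖ : ϖ ∈ S.A)
    (hϖ0 : S.res ⟨ϖ, hϖ⟩ = 0) : u ∈ S.Ov ∧ S.red u = 0 := by
  have h0 : algebraMap K F ϖ / u ≠ 0 := S.ne_zero_of_red_ne_zero hur
  have hu0 : u ≠ 0 := fun h => h0 (by rw [h, div_zero])
  have hϖF : algebraMap K F ϖ ≠ 0 := fun h => h0 (by rw [h, zero_div])
  have e : u = algebraMap K F ϖ * (algebraMap K F ϖ / u)⁻¹ := by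
    field_simp
  rw [e]
  exact ymod_const_mul S hϖ hϖ0 (S.inv_mem_of_red_ne_zero hur)

/-- **(B)** `ϖ / u` a unit of `O`, `ϖ ^ n = c b` with `c ∈ 𝔪_A`, `b ≠ 0` ⟹ `y ∈ 𝔪_O`. -/
theorem ymod_zero {u : F} {ϖ b c : K} (n : ℕ) (hur : S.red (algebraMap K F ϖ / u) ≠ 0)
    (hb : b ≠ 0) (hc : c ∈ S.A) (hc0 : S.res ⟨c, hc⟩ = 0) (hrel : ϖ ^ n = c * b) :
    ymodY u b n ∈ S.Ov ∧ S.red (ymodY u b n) = 0 := by
  have h0 : algebraMap K F ϖ / u ≠ 0 := S.ne_zero_of_red_ne_zero hur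
  have hu0 : u ≠ 0 := fun h => h0 (by rw [h, div_zero])
  have hϖF : algebraMap K F ϖ ≠ 0 := fun h => h0 (by rw [h, zero_div])
  have hbF : algebraMap K F b ≠ 0 := (_root_.map_ne_zero _).mpr hb
  rw [ymodY_eq_T' u b n hb]
  have e : u ^ n / algebraMap K F b = algebraMap K F c * ((algebraMap K F ϖ / u)⁻¹) ^ n := by
    have h2 : algebraMap K F ϖ ^ n = algebraMap K F c * algebraMap K F b := by
      rw [← map_pow, hrel, map_mul]
    have hcF : algebraMap K F c ≠ 0 := by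
      intro h
      rw [h, zero_mul] at h2
      exact pow_ne_zero n hϖF h2
    rw [inv_div, div_pow, h2]
    field_simp
  have hT : u ^ n / algebraMap K F b ∈ S.Ov ∧ S.red (u ^ n / algebraMap K F b) = 0 := by
    rw [e]
    exact ymod_const_mul S hc hc0 (pow_mem (S.inv_mem_of_red_ne_zero hur) n)
  exact ymod_red_frac_zero S hT.1 hT.2

/-- **(C)** `ϖ₁ / u` a unit of `O`, `ϖ₁ ∈ 𝔪_A` ⟹ `u ∈ 𝔪_O`. -/
theorem ymod_hor_u {u : F} {ϖ₁ : K} (hur : S.red (algebraMap K F ϖ₁ / u) ≠ 0) (hϖ : ϖ₁ ∈ S.A)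
    (hϖ0 : S.res ⟨ϖ₁, hϖ⟩ = 0) : u ∈ S.Ov ∧ S.red u = 0 :=
  ymod_u_of_inv S hur hϖ hϖ0

/-- **(C)** `ϖ₁ / u ∈ O`, `ϖ = ϖ₁ ϖ₂`, `ϖ₂ ∈ 𝔪_A` ⟹ `ϖ / u ∈ 𝔪_O`. -/
theorem ymod_hor_u' {u : F} {ϖ ϖ₁ ϖ₂ : K} (hW : algebraMap K F ϖ₁ / u ∈ S.Ov)
    (hϖ₂ : ϖ₂ ∈ S.A) (hϖ₂0 : S.res ⟨ϖ₂, hϖ₂⟩ = 0) (hrel : ϖ = ϖ₁ * ϖ₂) :
    algebraMap K F ϖ / u ∈ S.Ov ∧ S.red (algebraMap K F ϖ / u) = 0 := by
  have e : algebraMap K F ϖ / u = algebraMap K F ϖ₂ * (algebraMap K F ϖ₁ / u) := by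
    rw [hrel, map_mul]
    ring
  rw [e]
  exact ymod_const_mul S hϖ₂ hϖ₂0 hW

/-- a transcendental element times a nonzero constant power is not `1`. -/
theorem ymod_T_ne_one {W : Fk} (hW : Transcendental k W) {a : k} (ha : a ≠ 0) {n : ℕ}
    (hn : n ≠ 0) : algebraMap k Fk a * W ^ n ≠ 1 := by
  intro h
  apply hW
  refine ⟨Polynomial.C a * Polynomial.X ^ n - 1, ?_, ?_⟩
  · intro h0
    have h1 := congrArg (fun p : Polynomial k => p.coeff n) h0
    simp only [Polynomial.coeff_sub, Polynomial.coeff_C_mul, Polynomial.coeff_X_pow,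
      Polynomial.coeff_one, Polynomial.coeff_zero] at h1
    simp [hn] at h1
    exact ha h1
  · simp only [map_sub, map_mul, Polynomial.aeval_C, map_pow, Polynomial.aeval_X, map_one]
    rw [h, sub_self]

/-- `T̄ = ē W̄^n` is transcendental. -/
theorem ymod_T_transcendental {W : Fk} (hW : Transcendental k W) {a : k} (ha : a ≠ 0) {n : ℕ}
    (hn : n ≠ 0) : Transcendental k (algebraMap k Fk a * W ^ n) := by
  have h := hW.aeval (Polynomial.C a * Polynomial.X ^ n) (by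
    rw [Polynomial.natDegree_C_mul_X_pow n a ha]; exact hn)
    (mem_nonZeroDivisors_of_ne_zero (by
      rw [Polynomial.leadingCoeff_mul, Polynomial.leadingCoeff_C, Polynomial.leadingCoeff_X_pow,
        mul_one]
      exact ha))
  simpa using h

/-- **(C)** `W = ϖ₁ / u` a unit of `O` with transcendental reduction `W̄`, `b = e ϖ₁^n` with `e` a
unit of `A`, `n ≠ 0` ⟹ `y ∈ O` and `red y = T̄ / (1 - T̄)^2`, `T̄ = ē W̄^n`. -/
theorem ymod_hor {u : F} {ϖ₁ b e : K} {n : ℕ} (hn : n ≠ 0)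
    (hW : algebraMap K F ϖ₁ / u ∈ S.Ov)
    (hWtr : Transcendental k (S.red (algebraMap K F ϖ₁ / u)))
    (he : e ∈ S.A) (he0 : S.res ⟨e, he⟩ ≠ 0) (hrel : b = e * ϖ₁ ^ n) :
    ymodY u b n ∈ S.Ov ∧
      S.red (ymodY u b n) =
        (algebraMap k Fk (S.res ⟨e, he⟩) * S.red (algebraMap K F ϖ₁ / u) ^ n) /
          (1 - algebraMap k Fk (S.res ⟨e, he⟩) * S.red (algebraMap K F ϖ₁ / u) ^ n) ^ 2 := by
  have hur : S.red (algebraMap K F ϖ₁ / u) ≠ 0 := fun h => hWtr (by rw [h]; exact isAlgebraic_zero)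
  have h0 : algebraMap K F ϖ₁ / u ≠ 0 := S.ne_zero_of_red_ne_zero hur
  have hu0 : u ≠ 0 := fun h => h0 (by rw [h, div_zero])
  rw [ymodY_eq_T u b n hu0]
  have e1 : algebraMap K F b / u ^ n = algebraMap K F e * (algebraMap K F ϖ₁ / u) ^ n := by
    rw [hrel, map_mul, map_pow, div_pow]
    ring
  have hT : algebraMap K F b / u ^ n ∈ S.Ov := by
    rw [e1]
    exact mul_mem (S.algebraMap_mem he) (pow_mem hW n)
  have hTr : S.red (algebraMap K F b / u ^ n) =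
      algebraMap k Fk (S.res ⟨e, he⟩) * S.red (algebraMap K F ϖ₁ / u) ^ n := by
    rw [e1, S.red_mul (S.algebraMap_mem he) (pow_mem hW n), S.red_algebraMap he, S.red_pow hW]
  have h := ymod_red_frac S hT (by rw [hTr]; exact ymod_T_ne_one hWtr he0 hn)
  refine ⟨h.1, ?_⟩
  rw [h.2, hTr]

end One

/-! ### the function `T / (1 - T)^2` on the special fibre -/

section Frac

variable {k Fk : Type*} [Field k] [Field Fk] [Algebra k Fk]

/-- `T / (1 - T)^2 = s^2 - s`, `s = (1 - T)⁻¹`. -/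
theorem ymod_frac_eq {T : Fk} (h : 1 - T ≠ 0) :
    T / (1 - T) ^ 2 = ((1 - T)⁻¹) ^ 2 - (1 - T)⁻¹ := by
  field_simp
  ring

/-- `T` transcendental ⟹ `T / (1 - T)^2` transcendental. -/
theorem ymod_frac_transcendental {T : Fk} (hT : Transcendental k T) :
    Transcendental k (T / (1 - T) ^ 2) := by
  have h1 : 1 - T ≠ 0 := by
    intro h
    apply hT
    have : T = 1 := (sub_eq_zero.mp h).symm
    rw [this]
    exact isAlgebraic_one
  have h2 : Transcendental k (1 - T) := by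
    intro h
    apply hT
    have h3 : IsAlgebraic k (1 - (1 - T)) := isAlgebraic_one.sub h
    rwa [sub_sub_cancel] at h3
  have h3 : Transcendental k (1 - T)⁻¹ := by
    intro h
    apply h2
    have := h.inv
    rwa [inv_inv] at this
  rw [ymod_frac_eq h1]
  have h4 := h3.aeval (Polynomial.X ^ 2 - Polynomial.X) (by
    have : (Polynomial.X ^ 2 - Polynomial.X : Polynomial k).natDegree = 2 := by
      rw [Polynomial.natDegree_sub_eq_left_of_natDegree_lt]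
      · exact Polynomial.natDegree_X_pow 2
      · rw [Polynomial.natDegree_X_pow, Polynomial.natDegree_X]
        norm_num
    rw [this]
    norm_num)
    (mem_nonZeroDivisors_of_ne_zero (by
      have hm : (Polynomial.X ^ 2 - Polynomial.X : Polynomial k).Monic := by
        apply Polynomial.Monic.sub_of_left (Polynomial.monic_X_pow 2)
        rw [Polynomial.degree_X_pow, Polynomial.degree_X]
        norm_num
      rw [hm.leadingCoeff]
      exact one_ne_zero))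
  simpa using h4

/-- `ord_Q (T / (1 - T)^2) = ord_Q T` at a zero of `T`. -/
theorem ymod_frac_ord_of_pos (Q : Place k Fk) {T : Fk} (hT : 0 < Q.ord T) :
    Q.ord (T / (1 - T) ^ 2) = Q.ord T := by
  have hT0 : T ≠ 0 := by
    rintro rfl
    rw [Q.ord_zero] at hT
    exact lt_irrefl _ hT
  have hnT : -T ≠ 0 := neg_ne_zero.mpr hT0
  have h1 : Q.ord (1 - T) = 0 := by
    have := Fermat.Agent.GoodRedSmall.ord_add_eq_of_lt Q (one_ne_zero) hnT (by
      rw [Q.ord_one, Fermat.Agent.GoodRedSmall.ord_neg']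
      exact hT)
    rw [Q.ord_one, ← sub_eq_add_neg] at this
    exact this
  have h1' : 1 - T ≠ 0 := by
    intro h
    have h2 : T = 1 := (sub_eq_zero.mp h).symm
    rw [h2, Q.ord_one] at hT
    exact lt_irrefl _ hT
  rw [div_eq_mul_inv, Q.ord_mul hT0 (inv_ne_zero (pow_ne_zero 2 h1')), Q.ord_inv,
    Fermat.Agent.GoodRedSmall.ord_pow', h1]
  simp

/-- `ord_Q (T / (1 - T)^2) = - ord_Q T` at a pole of `T`. -/
theorem ymod_frac_ord_of_neg (Q : Place k Fk) {T : Fk} (hT : Q.ord T < 0) :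
    Q.ord (T / (1 - T) ^ 2) = - Q.ord T := by
  have hT0 : T ≠ 0 := by
    rintro rfl
    rw [Q.ord_zero] at hT
    exact lt_irrefl _ hT
  have hnT : -T ≠ 0 := neg_ne_zero.mpr hT0
  have h1 : Q.ord (1 - T) = Q.ord T := by
    have := Fermat.Agent.GoodRedSmall.ord_add_eq_of_lt Q hnT (one_ne_zero) (by
      rw [Q.ord_one, Fermat.Agent.GoodRedSmall.ord_neg']
      exact hT)
    rw [Fermat.Agent.GoodRedSmall.ord_neg', neg_add_eq_sub] at this
    exact this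
  have h1' : 1 - T ≠ 0 := by
    intro h
    have h2 : T = 1 := (sub_eq_zero.mp h).symm
    rw [h2, Q.ord_one] at hT
    exact lt_irrefl _ hT
  rw [div_eq_mul_inv, Q.ord_mul hT0 (inv_ne_zero (pow_ne_zero 2 h1')), Q.ord_inv,
    Fermat.Agent.GoodRedSmall.ord_pow', h1]
  push_cast
  ring

/-- `T / (1 - T)^2` vanishes at every zero and every pole of `T`. -/
theorem ymod_frac_ord_pos (Q : Place k Fk) {T : Fk} (hT : Q.ord T ≠ 0) :
    0 < Q.ord (T / (1 - T) ^ 2) := by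
  rcases lt_or_gt_of_ne hT with h | h
  · rw [ymod_frac_ord_of_neg Q h]
    omega
  · rw [ymod_frac_ord_of_pos Q h]
    exact h

/-- `ord_Q (ē W̄^n) = n ord_Q W̄`. -/
theorem ymod_T_ord (Q : Place k Fk) {W : Fk} (hW : W ≠ 0) {a : k} (ha : a ≠ 0) (n : ℕ) :
    Q.ord (algebraMap k Fk a * W ^ n) = n * Q.ord W := by
  rw [Q.ord_mul ((_root_.map_ne_zero _).mpr ha) (pow_ne_zero n hW),
    Fermat.Agent.GoodRedSmall.ord_const, Fermat.Agent.GoodRedSmall.ord_pow', zero_add]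

end Frac

/-! ### (C): transcendence and the ends -/

section Hor

variable {K F k Fk : Type*} [Field K] [Field F] [Algebra K F] [Field k] [Field Fk] [Algebra k Fk]
  (S : ValSetup K F k Fk)

/-- **(C)** `red y` is transcendental. -/
theorem ymod_hor_transcendental {u : F} {ϖ₁ b e : K} {n : ℕ} (hn : n ≠ 0)
    (hW : algebraMap K F ϖ₁ / u ∈ S.Ov)
    (hWtr : Transcendental k (S.red (algebraMap K F ϖ₁ / u)))
    (he : e ∈ S.A) (he0 : S.res ⟨e, he⟩ ≠ 0) (hrel : b = e * ϖ₁ ^ n) :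
    Transcendental k (S.red (ymodY u b n)) := by
  rw [(ymod_hor S hn hW hWtr he he0 hrel).2]
  exact ymod_frac_transcendental (ymod_T_transcendental hWtr he0 hn)

/-- **(C)** `red y` vanishes at every zero and every pole of `W̄ = red (ϖ₁ / u)`. -/
theorem ymod_hor_ord_pos {u : F} {ϖ₁ b e : K} {n : ℕ} (hn : n ≠ 0)
    (hW : algebraMap K F ϖ₁ / u ∈ S.Ov)
    (hWtr : Transcendental k (S.red (algebraMap K F ϖ₁ / u)))
    (he : e ∈ S.A) (he0 : S.res ⟨e, he⟩ ≠ 0) (hrel : b = e * ϖ₁ ^ n)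
    (Q : Place k Fk) (hQ : Q.ord (S.red (algebraMap K F ϖ₁ / u)) ≠ 0) :
    0 < Q.ord (S.red (ymodY u b n)) := by
  have hur : S.red (algebraMap K F ϖ₁ / u) ≠ 0 := fun h => hWtr (by rw [h]; exact isAlgebraic_zero)
  rw [(ymod_hor S hn hW hWtr he he0 hrel).2]
  apply ymod_frac_ord_pos
  rw [ymod_T_ord Q hur he0 n]
  exact mul_ne_zero (by exact_mod_cast hn) hQ

/-- **(C)** the reduction of `u / ϖ₁` is the inverse of the reduction of `ϖ₁ / u`. -/
theorem ymod_hor_red_inv {u : F} {ϖ₁ : K}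
    (hW : algebraMap K F ϖ₁ / u ∈ S.Ov) (hur : S.red (algebraMap K F ϖ₁ / u) ≠ 0) :
    u / algebraMap K F ϖ₁ ∈ S.Ov ∧
      S.red (u / algebraMap K F ϖ₁) = (S.red (algebraMap K F ϖ₁ / u))⁻¹ := by
  have h0 : algebraMap K F ϖ₁ / u ≠ 0 := S.ne_zero_of_red_ne_zero hur
  have hinv := S.inv_mem_of_red_ne_zero hur
  have e : u / algebraMap K F ϖ₁ = (algebraMap K F ϖ₁ / u)⁻¹ := by rw [inv_div]
  rw [e]
  exact ⟨hinv, S.red_inv hW hinv h0⟩

end Hor

end Fermat.Agent.S36G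
end
end MergeWrap_S36_Seed_YMod

section MergeWrap_S36_Seed_YModData -- from S36/Seed/YModData.lean

set_option autoImplicit false
set_option linter.unusedSectionVars false

/-!
# Cluster G (S36), SEED v3: `SeedFunData` of the seed built from `u₁` only  (helper74)

`E : ModEndsInput ..` (helper40, `S36/G/SeedInput.lean`) with `E.u2 = E.u1 / ϖ₁`,
`ϖ₁ ^ n = b = ϖ₁ ϖ₂`, `2 ≤ n`  (modular: `u₁ = Δ(z)/Δ(qz)`-type parameter, `n = q + 1`,
`b = q ^ 12`).  Seed function (helper7's shape, `Cl = Unit`):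

  `x = u₁ + b / u₁ + ∑ cl : Unit, ymodY u₁ b n`,   `ymodY u b n = b u^n / (u^n - b)^2`.

* `ModEndsInput.ymod_b_mem`, `.ymod_b_res` : `b ∈ 𝔪_A`;
* `ModEndsInput.ymod_u'_eq` : `ϖ₂ / u₂ = b / u₁`;
* `ModEndsInput.ymod_vert`, `.ymod_zero'`, `.ymod_horP` : the three kinds of components;
* `ModEndsInput.ymod_seedFunData` : **the `SeedFunData`** (all the fields; the ends are those of
  `E.toMatchInput`).
-/

noncomputable section

open AlgebraicCurve Fermat.Agent.RR Fermat.Agent.Deuring IntermediateField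

namespace Fermat.Agent.S36G

open Fermat.Agent.BadRed Fermat.Agent.BadRedG

variable {K F k : Type} [Field K] [Field F] [Algebra K F] [Field k]
  {Mid SS : Type} [Fintype Mid] [Fintype SS]
  {Fk0 : Type} [Field Fk0] [Algebra k Fk0]
  {FkM : Mid → Type} [∀ m, Field (FkM m)] [∀ m, Algebra k (FkM m)]
  {FkP : SS → Type} [∀ P, Field (FkP P)] [∀ P, Algebra k (FkP P)]

namespace ModEndsInput

variable (E : ModEndsInput K F k Mid SS Fk0 FkM FkP) {b : K} {n : ℕ}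

/-- `b = ϖ₁ ^ n ∈ A`. -/
theorem ymod_b_mem (hb : E.ϖ1 ^ n = b) (c : Vtx Mid SS) : b ∈ (E.S c).A := by
  rw [← hb]
  exact pow_mem (E.D1.ϖ_mem c) n

/-- `b = ϖ₁ ^ n ∈ 𝔪_A` (`n ≠ 0`). -/
theorem ymod_b_res (hn : n ≠ 0) (hb : E.ϖ1 ^ n = b) (c : Vtx Mid SS) (h : b ∈ (E.S c).A) :
    (E.S c).res ⟨b, h⟩ = 0 := by
  subst hb
  have h1 : (⟨E.ϖ1 ^ n, h⟩ : (E.S c).A) = (⟨E.ϖ1, E.D1.ϖ_mem c⟩ : (E.S c).A) ^ n := rfl
  rw [h1, map_pow, E.D1.ϖ_res c, zero_pow hn]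

/-- `b ^ (n - 1) ∈ 𝔪_A` (`2 ≤ n`). -/
theorem ymod_bpow_res (hn : 2 ≤ n) (hb : E.ϖ1 ^ n = b) (c : Vtx Mid SS)
    (h : b ^ (n - 1) ∈ (E.S c).A) : (E.S c).res ⟨b ^ (n - 1), h⟩ = 0 := by
  have hb' := E.ymod_b_mem hb c
  have h1 : (⟨b ^ (n - 1), h⟩ : (E.S c).A) = (⟨b, hb'⟩ : (E.S c).A) ^ (n - 1) := rfl
  rw [h1, map_pow, E.ymod_b_res (by omega) hb c hb', zero_pow (by omega)]

theorem ymod_ϖ1_ne : E.ϖ1 ≠ 0 := E.D1.ϖ_ne

theorem ymod_b_ne (hb : E.ϖ1 ^ n = b) : b ≠ 0 := by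
  rw [← hb]
  exact pow_ne_zero n E.D1.ϖ_ne

/-- `ϖ₂ / u₂ = b / u₁`. -/
theorem ymod_u'_eq (h12 : E.ϖ1 * E.ϖ2 = b) (hu2 : E.u2 = E.u1 / algebraMap K F E.ϖ1) :
    algebraMap K F E.ϖ2 / E.u2 = algebraMap K F b / E.u1 := by
  have h1 : algebraMap K F E.ϖ1 ≠ 0 := (_root_.map_ne_zero _).mpr E.D1.ϖ_ne
  rw [hu2, ← h12, map_mul]
  by_cases hu : E.u1 = 0
  · rw [hu]
    simp
  · field_simp

/-! ### the vertical components `∞`, `mid m` -/

theorem ymod_mem_V1₁ (v : Vrt Mid) (hv : v ≠ Vrt.zero) : (Vtx.vert v : Vtx Mid SS) ∈ E.V1₁ := by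
  rw [E.mem_V1₁]
  cases v with
  | oo => exact Or.inl rfl
  | zero => exact absurd rfl hv
  | mid m => exact Or.inr ⟨m, rfl⟩

theorem ymod_red_u_vert_ne (v : Vrt Mid) (hv : v ≠ Vrt.zero) :
    (E.S (Vtx.vert v)).red E.u1 ≠ 0 := fun h =>
  E.D1.u_tr _ (E.ymod_mem_V1₁ v hv) (by rw [h]; exact isAlgebraic_zero)

/-- on `∞` and the middle components: `b / u₁, y ∈ 𝔪`. -/
theorem ymod_vert (hn : n ≠ 0) (hb : E.ϖ1 ^ n = b) (v : Vrt Mid) (hv : v ≠ Vrt.zero) :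
    (algebraMap K F b / E.u1 ∈ (E.S (Vtx.vert v)).Ov ∧
      (E.S (Vtx.vert v)).red (algebraMap K F b / E.u1) = 0) ∧
    (ymodY E.u1 b n ∈ (E.S (Vtx.vert v)).Ov ∧ (E.S (Vtx.vert v)).red (ymodY E.u1 b n) = 0) :=
  ⟨ymod_const_div_unit _ (E.ymod_red_u_vert_ne v hv) (E.ymod_b_mem hb _)
      (E.ymod_b_res hn hb _ _),
    ymod_unit _ n (E.ymod_red_u_vert_ne v hv) (E.ymod_b_mem hb _) (E.ymod_b_res hn hb _ _)⟩

/-! ### the vertical component `0` -/

theorem ymod_mem_V2₂ : (Vtx.vert Vrt.zero : Vtx Mid SS) ∈ E.V2₂ := (E.mem_V2₂ _).mpr rfl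

theorem ymod_zero_mem (h12 : E.ϖ1 * E.ϖ2 = b) (hu2 : E.u2 = E.u1 / algebraMap K F E.ϖ1) :
    algebraMap K F b / E.u1 ∈ (E.S (Vtx.vert Vrt.zero)).Ov := by
  rw [← E.ymod_u'_eq h12 hu2]
  exact E.D2.u'_mem _ E.ymod_mem_V2₂

theorem ymod_zero_tr (h12 : E.ϖ1 * E.ϖ2 = b) (hu2 : E.u2 = E.u1 / algebraMap K F E.ϖ1) :
    Transcendental k ((E.S (Vtx.vert Vrt.zero)).red (algebraMap K F b / E.u1)) := by
  rw [← E.ymod_u'_eq h12 hu2]
  exact E.D2.u'_tr _ E.ymod_mem_V2₂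

theorem ymod_zero_ne (h12 : E.ϖ1 * E.ϖ2 = b) (hu2 : E.u2 = E.u1 / algebraMap K F E.ϖ1) :
    (E.S (Vtx.vert Vrt.zero)).red (algebraMap K F b / E.u1) ≠ 0 := fun h =>
  E.ymod_zero_tr h12 hu2 (by rw [h]; exact isAlgebraic_zero)

/-- on the component `0`: `u₁, y ∈ 𝔪`. -/
theorem ymod_zero' (hn : 2 ≤ n) (hb : E.ϖ1 ^ n = b) (h12 : E.ϖ1 * E.ϖ2 = b)
    (hu2 : E.u2 = E.u1 / algebraMap K F E.ϖ1) :
    (E.u1 ∈ (E.S (Vtx.vert Vrt.zero)).Ov ∧ (E.S (Vtx.vert Vrt.zero)).red E.u1 = 0) ∧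
    (ymodY E.u1 b n ∈ (E.S (Vtx.vert Vrt.zero)).Ov ∧
      (E.S (Vtx.vert Vrt.zero)).red (ymodY E.u1 b n) = 0) := by
  have hbm := E.ymod_b_mem hb (Vtx.vert Vrt.zero)
  refine ⟨ymod_u_of_inv _ (E.ymod_zero_ne h12 hu2) hbm (E.ymod_b_res (by omega) hb _ _), ?_⟩
  have hc : b ^ (n - 1) ∈ (E.S (Vtx.vert Vrt.zero)).A := pow_mem hbm _
  refine ymod_zero _ n (E.ymod_zero_ne h12 hu2) (E.ymod_b_ne hb) hc
    (E.ymod_bpow_res hn hb _ hc) ?_
  rw [← pow_succ]
  congr 1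
  omega

/-! ### the horizontal components -/

theorem ymod_mem_V1₂ (P : SS) : (Vtx.hor P : Vtx Mid SS) ∈ E.V1₂ := (E.mem_V1₂ _).mpr ⟨P, rfl⟩

theorem ymod_hor_W_mem (P : SS) : algebraMap K F E.ϖ1 / E.u1 ∈ (E.S (Vtx.hor P)).Ov :=
  E.D1.u'_mem _ (E.ymod_mem_V1₂ P)

theorem ymod_hor_W_tr (P : SS) :
    Transcendental k ((E.S (Vtx.hor P)).red (algebraMap K F E.ϖ1 / E.u1)) :=
  E.D1.u'_tr _ (E.ymod_mem_V1₂ P)

theorem ymod_hor_W_ne (P : SS) : (E.S (Vtx.hor P)).red (algebraMap K F E.ϖ1 / E.u1) ≠ 0 :=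
  fun h => E.ymod_hor_W_tr P (by rw [h]; exact isAlgebraic_zero)

theorem ymod_one_res (c : Vtx Mid SS) : (E.S c).res ⟨1, (E.S c).A.one_mem⟩ ≠ 0 := by
  have h1 : (⟨1, (E.S c).A.one_mem⟩ : (E.S c).A) = 1 := rfl
  rw [h1, map_one]
  exact one_ne_zero

/-- on `H_P`: `u₁, b / u₁ ∈ 𝔪`, `y ∈ O`. -/
theorem ymod_horP (hn : n ≠ 0) (hb : E.ϖ1 ^ n = b) (h12 : E.ϖ1 * E.ϖ2 = b) (P : SS) :
    (E.u1 ∈ (E.S (Vtx.hor P)).Ov ∧ (E.S (Vtx.hor P)).red E.u1 = 0) ∧
    (algebraMap K F b / E.u1 ∈ (E.S (Vtx.hor P)).Ov ∧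
      (E.S (Vtx.hor P)).red (algebraMap K F b / E.u1) = 0) ∧
    ymodY E.u1 b n ∈ (E.S (Vtx.hor P)).Ov :=
  ⟨ymod_hor_u _ (E.ymod_hor_W_ne P) (E.D1.ϖ_mem _) (E.D1.ϖ_res _ _),
    ymod_hor_u' _ (E.ymod_hor_W_mem P) (E.D2.ϖ_mem _) (E.D2.ϖ_res _ _) h12.symm,
    (ymod_hor _ hn (E.ymod_hor_W_mem P) (E.ymod_hor_W_tr P) (E.S _).A.one_mem
      (E.ymod_one_res _) (by rw [one_mul, hb])).1⟩

/-- on `H_P`: `red y` is transcendental. -/
theorem ymod_horP_tr (hn : n ≠ 0) (hb : E.ϖ1 ^ n = b) (P : SS) :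
    Transcendental k ((E.S (Vtx.hor P)).red (ymodY E.u1 b n)) :=
  ymod_hor_transcendental _ hn (E.ymod_hor_W_mem P) (E.ymod_hor_W_tr P) (E.S _).A.one_mem
    (E.ymod_one_res _) (by rw [one_mul, hb])

/-- on `H_P`: `red y = W̄^n / (1 - W̄^n)^2`, `W̄ = red (ϖ₁ / u₁)`. -/
theorem ymod_horP_red (hn : n ≠ 0) (hb : E.ϖ1 ^ n = b) (P : SS) :
    (E.S (Vtx.hor P)).red (ymodY E.u1 b n) =
      (E.S (Vtx.hor P)).red (algebraMap K F E.ϖ1 / E.u1) ^ n /
        (1 - (E.S (Vtx.hor P)).red (algebraMap K F E.ϖ1 / E.u1) ^ n) ^ 2 := by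
  have h := (ymod_hor (E.S (Vtx.hor P)) hn (E.ymod_hor_W_mem P) (E.ymod_hor_W_tr P)
    (E.S _).A.one_mem (E.ymod_one_res _) (by rw [one_mul, hb] : b = 1 * E.ϖ1 ^ n)).2
  have h1 : (⟨1, (E.S (Vtx.hor P)).A.one_mem⟩ : (E.S (Vtx.hor P)).A) = 1 := rfl
  rw [h, h1, map_one, map_one, one_mul]

/-- on `H_P`: `red y` vanishes at every zero of `red (ϖ₁ / u₁)` and of `red u₂`. -/
theorem ymod_horP_ord (hn : n ≠ 0) (hb : E.ϖ1 ^ n = b)
    (hu2 : E.u2 = E.u1 / algebraMap K F E.ϖ1) (P : SS)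
    (Q : Place k (FkOf Fk0 FkM FkP (Vtx.hor P)))
    (hQ : 0 < Q.ord ((E.S (Vtx.hor P)).red (algebraMap K F E.ϖ1 / E.u1)) ∨
      0 < Q.ord ((E.S (Vtx.hor P)).red E.u2)) :
    0 < Q.ord ((E.S (Vtx.hor P)).red (ymodY E.u1 b n)) := by
  refine ymod_hor_ord_pos _ hn (E.ymod_hor_W_mem P) (E.ymod_hor_W_tr P) (E.S _).A.one_mem
    (E.ymod_one_res _) (by rw [one_mul, hb]) Q ?_
  rcases hQ with h | h
  · exact h.ne'
  · rw [hu2, (ymod_hor_red_inv _ (E.ymod_hor_W_mem P) (E.ymod_hor_W_ne P)).2, Q.ord_inv] at h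
    omega

/-! ### the `SeedFunData` -/

/-- **SEED v3**: the `SeedFunData` of `x = u₁ + b / u₁ + ∑ cl : Unit, ymodY u₁ b n`. -/
theorem ymod_seedFunData [Infinite k] (hn : 2 ≤ n) (hb : E.ϖ1 ^ n = b)
    (h12 : E.ϖ1 * E.ϖ2 = b) (hu2 : E.u2 = E.u1 / algebraMap K F E.ϖ1) :
    SeedFunData E.S E.pv
      {p | p ∈ E.toMatchInput.PJA ∨ p ∈ E.toMatchInput.PJM ∨ p ∈ E.toMatchInput.PJ2}
      (fun _ : SS => ()) E.u1 b (fun _ : Unit => ymodY E.u1 b n) where
  u_mem := by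
    intro c
    cases c with
    | vert v =>
      by_cases hv : v = Vrt.zero
      · subst hv
        exact (E.ymod_zero' hn hb h12 hu2).1.1
      · exact E.D1.u_mem _ (E.ymod_mem_V1₁ v hv)
    | hor P => exact (E.ymod_horP (by omega) hb h12 P).1.1
  u'_mem := by
    intro c
    cases c with
    | vert v =>
      by_cases hv : v = Vrt.zero
      · subst hv
        exact E.ymod_zero_mem h12 hu2
      · exact (E.ymod_vert (by omega) hb v hv).1.1
    | hor P => exact (E.ymod_horP (by omega) hb h12 P).2.1.1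
  y_mem := by
    intro c _
    cases c with
    | vert v =>
      by_cases hv : v = Vrt.zero
      · subst hv
        exact (E.ymod_zero' hn hb h12 hu2).2.1
      · exact (E.ymod_vert (by omega) hb v hv).2.1
    | hor P => exact (E.ymod_horP (by omega) hb h12 P).2.2
  red_u'_vert := fun v hv => (E.ymod_vert (by omega) hb v hv).1.2
  red_u_zero := (E.ymod_zero' hn hb h12 hu2).1.2
  red_y_vert := by
    intro v _
    by_cases hv : v = Vrt.zero
    · subst hv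
      exact (E.ymod_zero' hn hb h12 hu2).2.2
    · exact (E.ymod_vert (by omega) hb v hv).2.2
  red_u_hor := fun P => (E.ymod_horP (by omega) hb h12 P).1.2
  red_u'_hor := fun P => (E.ymod_horP (by omega) hb h12 P).2.1.2
  red_y_hor := fun P cl hcl => absurd rfl hcl
  tr_u := fun v hv => E.D1.u_tr _ (E.ymod_mem_V1₁ v hv)
  tr_u' := E.ymod_zero_tr h12 hu2
  tr_y := fun P => E.ymod_horP_tr (by omega) hb P
  ord_u := by
    intro P v hv
    cases v with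
    | oo => rw [E.o1oo P]; exact E.w1_pos.le
    | zero => exact absurd rfl hv
    | mid m => rw [E.o1m P m]; exact E.wM_pos.le
  ord_u' := by
    intro P
    rw [← E.ymod_u'_eq h12 hu2, E.o2 P]
    exact E.w2_pos.le
  end_hor := fun p hp => ((E.mem_ends_iff p).mp hp).1
  ord_y := by
    intro P Q hp
    exact (E.ymod_horP_ord (by omega) hb hu2 P Q ((E.mem_ends_iff ⟨Vtx.hor P, Q⟩).mp hp).2).le

end ModEndsInput

end Fermat.Agent.S36G
end
end MergeWrap_S36_Seed_YModData
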