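import Mathlib
import Fermat.Agent.MUL.Lib.BadRed.Mod.SSDeg
import Fermat.Agent.MUL.Lib.BadRed.Mod.SeedOfU
import Fermat.Agent.MUL.Lib.RedTr.FundIdK
import Fermat.Agent.MUL.S36.Seed.MN2
import Fermat.Agent.MUL.S36.Seed.YModData
import Fermat.Agent.MUL.S36.Seed.Main
import Fermat.Agent.MUL.S36.Norm.VertSetup

section MergeWrap_S36_Seed_YModDeg -- from S36/Seed/YModDeg.lean

set_option autoImplicit false
set_option linter.unusedSectionVars false
set_option linter.style.haveILetI false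

/-!
# Cluster G (S36), SEED v3: the degree inequality `hdeg` of the seed built from `u₁` only
(helper74)

## Generic (any `IsRRField K F`, `u` transcendental, `b ≠ 0`, `n ≠ 0`)
`w = u^n - b`, `y = ymodY u b n = b / w + b^2 / w^2`:
* `ymodd_transcendental` : `y` is transcendental;
* `ymodd_finiteDimensional` : `F` is finite over `K(y)`;
* `ymodd_finrank` : **`[F : K(y)] = 2 n [F : K(u)]`**.

## Modular graph (`E : ModEndsInput ..`, `E.u2 = E.u1 / ϖ₁`, `ϖ₁ ^ n = b = ϖ₁ ϖ₂`, `2 ≤ n`)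
* `ModEndsInput.ymod_u1_transcendental`, `.ymod_u1_finiteDimensional`;
* `ModEndsInput.ymod_deg₁`, `.ymod_deg₂`, `.ymod_degP` : the three degree inequalities of
  `SeedFunData.hdeg` (from `E.D1.deg₁`, `E.D2.deg₂`, `E.D1.deg₂`);
* `ModEndsInput.ymod_hdeg` : **`deg (x)_∞ ≤ ∑_c deg (red_c x)_∞`** for
  `x = u₁ + b / u₁ + ∑ cl : Unit, ymodY u₁ b n`;
* `ModEndsInput.ymodX_hdeg` : the same in terms of `E.ymodX b n` (helper92's `Main.lean`);
* `ModEndsInput.ymodSeedFull` : helper92's `E.ymodSeed` with `hdeg` discharged.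
-/

noncomputable section

open AlgebraicCurve Fermat.Agent.RR Fermat.Agent.Deuring IntermediateField Polynomial

namespace Fermat.Agent.S36G

open Fermat.Agent.BadRed Fermat.Agent.BadRedG

/-! ### generic part -/

section Gen

variable {K F : Type*} [Field K] [Field F] [Algebra K F]

/-- `K(w⁻¹) = K(w)`. -/
theorem ymodd_adjoin_inv (w : F) : K⟮w⁻¹⟯ = K⟮w⟯ := by
  apply le_antisymm
  · rw [IntermediateField.adjoin_simple_le_iff]
    exact inv_mem (IntermediateField.mem_adjoin_simple_self K w)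
  · rw [IntermediateField.adjoin_simple_le_iff]
    have h := inv_mem (IntermediateField.mem_adjoin_simple_self K w⁻¹)
    rwa [inv_inv] at h

/-- `w = u^n - b` as a polynomial in `u`. -/
theorem ymodd_w_eq (u : F) (b : K) (n : ℕ) :
    u ^ n - algebraMap K F b = Polynomial.aeval u (X ^ n - C b : K[X]) := by
  simp

theorem ymodd_natDegree_w (b : K) {n : ℕ} (_hn : n ≠ 0) :
    (X ^ n - C b : K[X]).natDegree = n :=
  Polynomial.natDegree_X_pow_sub_C

/-- `y = b w⁻¹ + b^2 (w⁻¹)^2` as a polynomial in `w⁻¹`. -/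
theorem ymodd_y_eq (u : F) (b : K) (n : ℕ) (hw : u ^ n - algebraMap K F b ≠ 0) :
    ymodY u b n =
      Polynomial.aeval (u ^ n - algebraMap K F b)⁻¹ (C (b ^ 2) * X ^ 2 + C b * X : K[X]) := by
  rw [ymodY_def]
  simp only [map_add, map_mul, Polynomial.aeval_C, map_pow, Polynomial.aeval_X]
  field_simp
  ring

theorem ymodd_natDegree_y {b : K} (hb : b ≠ 0) : (C (b ^ 2) * X ^ 2 + C b * X : K[X]).natDegree = 2 := by
  have h2 : (C (b ^ 2) * X ^ 2 : K[X]).natDegree = 2 :=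
    Polynomial.natDegree_C_mul_X_pow 2 _ (pow_ne_zero 2 hb)
  have h1 : (C b * X : K[X]).natDegree = 1 := Polynomial.natDegree_C_mul_X b hb
  rw [Polynomial.natDegree_add_eq_left_of_natDegree_lt (by rw [h1, h2]; norm_num), h2]

/-- `w = u^n - b` is transcendental. -/
theorem ymodd_w_transcendental {u : F} (hu : Transcendental K u) (b : K) {n : ℕ} (hn : n ≠ 0) :
    Transcendental K (u ^ n - algebraMap K F b) := by
  rw [ymodd_w_eq]
  exact transcendental_aeval' hu (by rw [ymodd_natDegree_w b hn]; exact hn)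

theorem ymodd_winv_transcendental {u : F} (hu : Transcendental K u) (b : K) {n : ℕ}
    (hn : n ≠ 0) : Transcendental K (u ^ n - algebraMap K F b)⁻¹ := by
  intro h
  apply ymodd_w_transcendental hu b hn
  have := h.inv
  rwa [inv_inv] at this

theorem ymodd_w_ne {u : F} (hu : Transcendental K u) (b : K) {n : ℕ} (hn : n ≠ 0) :
    u ^ n - algebraMap K F b ≠ 0 := fun h =>
  ymodd_w_transcendental hu b hn (by rw [h]; exact isAlgebraic_zero)

/-- `y` is transcendental. -/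
theorem ymodd_transcendental {u : F} (hu : Transcendental K u) {b : K} (hb : b ≠ 0) {n : ℕ}
    (hn : n ≠ 0) : Transcendental K (ymodY u b n) := by
  rw [ymodd_y_eq u b n (ymodd_w_ne hu b hn)]
  exact transcendental_aeval' (ymodd_winv_transcendental hu b hn)
    (by rw [ymodd_natDegree_y hb]; norm_num)

/-- `F` is finite over `K(y)`. -/
theorem ymodd_finiteDimensional (hRR : IsRRField K F) {u : F} (hu : Transcendental K u) {b : K}
    (hb : b ≠ 0) {n : ℕ} (hn : n ≠ 0) : FiniteDimensional K⟮ymodY u b n⟯ F :=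
  Fermat.Agent.RedTr.fundIdK_finiteDimensional hRR (ymodd_transcendental hu hb hn)

/-- **`[F : K(y)] = 2 n [F : K(u)]`**. -/
theorem ymodd_finrank (hRR : IsRRField K F) {u : F} (hu : Transcendental K u) {b : K}
    (hb : b ≠ 0) {n : ℕ} (hn : n ≠ 0) :
    Module.finrank K⟮ymodY u b n⟯ F = 2 * n * Module.finrank K⟮u⟯ F := by
  haveI := Fermat.Agent.RedTr.fundIdK_finiteDimensional hRR hu
  haveI := Fermat.Agent.RedTr.fundIdK_finiteDimensional hRR (ymodd_winv_transcendental hu b hn)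
  have h1 : Module.finrank K⟮u ^ n - algebraMap K F b⟯ F = n * Module.finrank K⟮u⟯ F := by
    rw [ymodd_w_eq]
    have := finrank_adjoin_aeval hRR hu (P := (X ^ n - C b : K[X]))
      (by rw [ymodd_natDegree_w b hn]; exact hn)
    rw [this, ymodd_natDegree_w b hn]
  have h2 : Module.finrank K⟮(u ^ n - algebraMap K F b)⁻¹⟯ F = n * Module.finrank K⟮u⟯ F := by
    rw [ymodd_adjoin_inv, h1]
  rw [ymodd_y_eq u b n (ymodd_w_ne hu b hn)]
  have h3 := finrank_adjoin_aeval hRR (ymodd_winv_transcendental hu b hn)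
    (P := (C (b ^ 2) * X ^ 2 + C b * X : K[X])) (by rw [ymodd_natDegree_y hb]; norm_num)
  rw [h3, ymodd_natDegree_y hb, h2, mul_assoc]

/-- `W^n / (1 - W^n)^2 = ymodY W 1 n`. -/
theorem ymodd_frac_eq (W : F) (n : ℕ) :
    W ^ n / (1 - W ^ n) ^ 2 = ymodY W (1 : K) n := by
  rw [ymodY_eq_T' W (1 : K) n one_ne_zero, map_one, div_one]

end Gen

/-! ### the modular graph -/

section Mod

variable {K F k : Type} [Field K] [Field F] [Algebra K F] [Field k]
  {Mid SS : Type} [Fintype Mid] [Fintype SS]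
  {Fk0 : Type} [Field Fk0] [Algebra k Fk0]
  {FkM : Mid → Type} [∀ m, Field (FkM m)] [∀ m, Algebra k (FkM m)]
  {FkP : SS → Type} [∀ P, Field (FkP P)] [∀ P, Algebra k (FkP P)]

namespace ModEndsInput

variable (E : ModEndsInput K F k Mid SS Fk0 FkM FkP) {b : K} {n : ℕ}

theorem ymod_oo_mem_V1₁ : (Vtx.vert Vrt.oo : Vtx Mid SS) ∈ E.V1₁ := (E.mem_V1₁ _).mpr (Or.inl rfl)

/-- `u₁` is transcendental. -/
theorem ymod_u1_transcendental : Transcendental K E.u1 :=
  Fermat.Agent.BadRed.SeedNode.sn_transcendental_of_red (E.S (Vtx.vert Vrt.oo))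
    (E.D1.u_mem _ E.ymod_oo_mem_V1₁) (E.D1.u_tr _ E.ymod_oo_mem_V1₁)

/-- `F` is finite over `K(u₁)`. -/
theorem ymod_u1_finiteDimensional : FiniteDimensional K⟮E.u1⟯ F :=
  Fermat.Agent.RedTr.fundIdK_finiteDimensional (E.S (Vtx.vert Vrt.oo)).hF E.ymod_u1_transcendental

theorem ymod_V1₁_eq : E.V1₁ = sposV₁ Mid SS := by
  ext c
  rw [E.mem_V1₁, mem_sposV₁]
  constructor
  · rintro (rfl | ⟨m, rfl⟩)
    · exact ⟨Vrt.oo, by simp, rfl⟩
    · exact ⟨Vrt.mid m, by simp, rfl⟩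
  · rintro ⟨v, hv, rfl⟩
    cases v with
    | oo => exact Or.inl rfl
    | zero => exact absurd rfl hv
    | mid m => exact Or.inr ⟨m, rfl⟩

theorem ymod_V2₂_eq : E.V2₂ = sposV₂ Mid SS := by
  ext c
  rw [E.mem_V2₂, mem_sposV₂]

theorem ymod_V1₂_eq : E.V1₂ = sposVP Mid (fun _ : SS => ()) () := by
  ext c
  rw [E.mem_V1₂, mem_sposVP]
  constructor
  · rintro ⟨P, rfl⟩
    exact ⟨P, rfl, rfl⟩
  · rintro ⟨P, -, rfl⟩
    exact ⟨P, rfl⟩

/-- the degree inequality on `∞` and the middle components. -/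
theorem ymod_deg₁ :
    Module.finrank K⟮E.u1⟯ F ≤
      ∑ c ∈ sposV₁ Mid SS, Module.finrank k⟮(E.S c).red E.u1⟯ (FkOf Fk0 FkM FkP c) := by
  rw [← E.ymod_V1₁_eq]
  exact E.D1.deg₁

/-- the degree inequality on the component `0`. -/
theorem ymod_deg₂ (h12 : E.ϖ1 * E.ϖ2 = b) (hu2 : E.u2 = E.u1 / algebraMap K F E.ϖ1) :
    Module.finrank K⟮E.u1⟯ F ≤
      ∑ c ∈ sposV₂ Mid SS,
        Module.finrank k⟮(E.S c).red (algebraMap K F b / E.u1)⟯ (FkOf Fk0 FkM FkP c) := by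
  rw [← E.ymod_V2₂_eq, ← E.ymod_u'_eq h12 hu2]
  have h := E.D2.deg₂
  rwa [hu2, seed_finrank_div_const E.D1.ϖ_ne, ← hu2] at h

/-- the degree inequality on the horizontal components. -/
theorem ymod_degP (hn : n ≠ 0) (hb : E.ϖ1 ^ n = b) :
    Module.finrank K⟮ymodY E.u1 b n⟯ F ≤
      ∑ c ∈ sposVP Mid (fun _ : SS => ()) (),
        Module.finrank k⟮(E.S c).red (ymodY E.u1 b n)⟯ (FkOf Fk0 FkM FkP c) := by
  rw [← E.ymod_V1₂_eq, ymodd_finrank (E.S (Vtx.vert Vrt.oo)).hF E.ymod_u1_transcendental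
    (E.ymod_b_ne hb) hn]
  have h : ∀ c ∈ E.V1₂, Module.finrank k⟮(E.S c).red (ymodY E.u1 b n)⟯ (FkOf Fk0 FkM FkP c) =
      2 * n * Module.finrank k⟮(E.S c).red (algebraMap K F E.ϖ1 / E.u1)⟯
        (FkOf Fk0 FkM FkP c) := by
    intro c hc
    obtain ⟨P, rfl⟩ := (E.mem_V1₂ c).mp hc
    rw [E.ymod_horP_red hn hb P, ymodd_frac_eq (K := k)]
    exact ymodd_finrank (E.S (Vtx.hor P)).hFk (E.ymod_hor_W_tr P) one_ne_zero hn
  rw [Finset.sum_congr rfl h, ← Finset.mul_sum]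
  exact Nat.mul_le_mul_left _ E.D1.deg₂

/-- **`hdeg`**: `deg (x)_∞ ≤ ∑_c deg (red_c x)_∞` for the seed function
`x = u₁ + b / u₁ + ∑ cl : Unit, ymodY u₁ b n`. -/
theorem ymod_hdeg [Infinite k] (hn : 2 ≤ n) (hb : E.ϖ1 ^ n = b)
    (h12 : E.ϖ1 * E.ϖ2 = b) (hu2 : E.u2 = E.u1 / algebraMap K F E.ϖ1) :
    Divisor.degree (poleDiv (E.S (Vtx.vert Vrt.oo)).hF
        (E.u1 + algebraMap K F b / E.u1 + ∑ _cl : Unit, ymodY E.u1 b n)) ≤
      ∑ c, Divisor.degree (poleDiv (E.S c).hFk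
        ((E.S c).red (E.u1 + algebraMap K F b / E.u1 + ∑ _cl : Unit, ymodY E.u1 b n))) := by
  haveI := E.ymod_u1_finiteDimensional
  exact (E.ymod_seedFunData hn hb h12 hu2).hdeg (E.S (Vtx.vert Vrt.oo)).hF
    E.ymod_u1_transcendental (E.ymod_b_ne hb)
    (fun _ => ymodd_transcendental E.ymod_u1_transcendental (E.ymod_b_ne hb) (by omega))
    (fun _ => ymodd_finiteDimensional (E.S (Vtx.vert Vrt.oo)).hF E.ymod_u1_transcendental
      (E.ymod_b_ne hb) (by omega))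
    E.ymod_deg₁ (E.ymod_deg₂ h12 hu2) (fun _ => E.ymod_degP (by omega) hb)

/-- **`hdeg`** in terms of `E.ymodX b n` (the hypothesis `hdeg` of `ModEndsInput.ymodSeed`). -/
theorem ymodX_hdeg [Infinite k] (hn : 2 ≤ n) (hb : E.ϖ1 ^ n = b)
    (h12 : E.ϖ1 * E.ϖ2 = b) (hu2 : E.u2 = E.u1 / algebraMap K F E.ϖ1) :
    Divisor.degree (poleDiv (E.S (Vtx.vert Vrt.oo)).hF (E.ymodX b n)) ≤
      ∑ c, Divisor.degree (poleDiv (E.S c).hFk ((E.S c).red (E.ymodX b n))) :=
  E.ymod_hdeg hn hb h12 hu2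

/-- **the modular `GraphSeed`** of the seed function built from `u₁` only, `hdeg` discharged;
what is left are the definition of `E.D₀` and the genus inequality. -/
def ymodSeedFull [Infinite k] [Nonempty SS] (hn : 2 ≤ n) (hb : E.ϖ1 ^ n = b)
    (h12 : E.ϖ1 * E.ϖ2 = b) (hu2 : E.u2 = E.u1 / algebraMap K F E.ϖ1)
    (hD₀ : E.D₀ = poleDiv (E.S (Vtx.vert Vrt.oo)).hF (E.ymodX b n))
    (hgenus : genusFF K F + Fintype.card (Vtx Mid SS) ≤
      (∑ c, genusFF k (FkOf Fk0 FkM FkP c)) + Fintype.card (Nod Mid SS) + 1) :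
    GraphSeed K F k (Vtx Mid SS) (FkOf Fk0 FkM FkP) (Nod Mid SS) :=
  E.ymodSeed hn hb h12 hu2 hD₀ (E.ymodX_hdeg hn hb h12 hu2) hgenus

theorem ymodSeedFull_eq [Infinite k] [Nonempty SS] (hn : 2 ≤ n) (hb : E.ϖ1 ^ n = b)
    (h12 : E.ϖ1 * E.ϖ2 = b) (hu2 : E.u2 = E.u1 / algebraMap K F E.ϖ1)
    (hD₀ : E.D₀ = poleDiv (E.S (Vtx.vert Vrt.oo)).hF (E.ymodX b n))
    (hgenus : genusFF K F + Fintype.card (Vtx Mid SS) ≤
      (∑ c, genusFF k (FkOf Fk0 FkM FkP c)) + Fintype.card (Nod Mid SS) + 1) :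
    E.ymodSeedFull hn hb h12 hu2 hD₀ hgenus =
      E.ymodSeed hn hb h12 hu2 hD₀ (E.ymodX_hdeg hn hb h12 hu2) hgenus := rfl

end ModEndsInput

end Mod

end Fermat.Agent.S36G
end
end MergeWrap_S36_Seed_YModDeg
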