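import Mathlib
import Fermat.Agent.MUL.S36.Seed.UMid
import Fermat.Agent.MUL.S36.Igusa.Theta
import Fermat.Agent.MUL.Lib.BadRed.Mod.UHyp
import Fermat.Agent.MUL.S36.Seed.OldZero

section MergeWrap_S36_Seed_UMidRed -- from S36/Seed/UMidRed.lean

set_option autoImplicit false
set_option linter.style.haveILetI false
set_option linter.unusedSectionVars false
set_option synthInstance.maxHeartbeats 400000

noncomputable section

namespace Fermat.Agent.S36G

open ModularCurve AlgebraicCurve Fermat.Agent.GaussInt Fermat.Agent.Deuring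
  Fermat.Agent.Kronecker Fermat.Agent.BadRed Fermat.Agent.S24

local notation "Qb" => AlgebraicClosure ℚ

attribute [local instance 10000] SubalgebraClass.toAlgebra HahnSeries.powerSeriesAlgebra

/-! ### the integral series `u(z Q)` -/

section Series

variable (A : ValuationSubring Qb)

/-- the integral series `u₁(z Q)` -/
def umidSer {q : ℕ} (hq : 0 < q) (z : Qbˣ) (hz : z ^ q = 1) : LaurentSeries ↥A :=
  scaleL (igRootUnit A hq z hz) (uSer ↥A q)

theorem emb_umidSer {q : ℕ} (hq : 0 < q) (z : Qbˣ) (hz : z ^ q = 1) :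
    emb A (umidSer A hq z hz) = scaleL z (uSer Qb q) := by
  unfold umidSer emb
  rw [coeffMap_scaleL, coeffMap_uSer]
  congr 1

theorem red_umidSer {q : ℕ} (hq : q.Prime) (hA : A.LiesOverPrime q) (z : Qbˣ)
    (hz : z ^ q = 1) :
    red A (umidSer A hq.pos z hz) = uSer (IsLocalRing.ResidueField ↥A) q := by
  unfold umidSer red
  rw [coeffMap_scaleL, coeffMap_uSer]
  have h := igRootUnit_res A hq hA z hz
  rw [show Units.map ((IsLocalRing.residue ↥A : ↥A →+* IsLocalRing.ResidueField ↥A) :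
      ↥A →* IsLocalRing.ResidueField ↥A) (igRootUnit A hq.pos z hz) = 1 from h, scaleL_one]

end Series

variable (M₀ q : ℕ) [NeZero M₀] [NeZero q] (A : ValuationSubring Qb)

/-! ### `u₁` -/

/-- **`u₁` is integral for `v_z`.** -/
theorem umid_uF_mem_expOv {z : Qbˣ}
    {ε : ↥(modularFunctionFieldBar (M₀ * q * q)) →ₐ[Qb] LaurentSeries Qb}
    (hε : IsMidExp M₀ q z ε) :
    uF (M₀ * q * q) q (umid_dvd1 M₀ q) ∈ expOv ε A := by
  rw [mem_expOv_iff, umid_eps_uF M₀ q hε, ← uh_emb_uSer (A := A)]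
  exact emb_mem_gaussSub IntermediateField.mem_top

/-- **the residue of `u₁` at `v_z` is the series `u₁` over the residue field.** -/
theorem umid_expRes_uF {z : Qbˣ}
    {ε : ↥(modularFunctionFieldBar (M₀ * q * q)) →ₐ[Qb] LaurentSeries Qb}
    (hε : IsMidExp M₀ q z ε) :
    expRes ε A (uF (M₀ * q * q) q (umid_dvd1 M₀ q)) = uSer (IsLocalRing.ResidueField A) q := by
  unfold expRes
  rw [umid_eps_uF M₀ q hε, ← uh_emb_uSer (A := A), gaussResFun_emb IntermediateField.mem_top]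
  exact coeffMap_uSer A q (IsLocalRing.residue A)

/-! ### `q ^ 12 / u₂` -/

/-- **`ε_z (q ^ 12 / u₂) = u₁(z Q)`.** -/
theorem umid_eps_const_div_uF2 (hq : q.Prime) (hqM : ¬ q ∣ M₀) {z : Qbˣ}
    (hz : IsPrimitiveRoot z q)
    {ε : ↥(modularFunctionFieldBar (M₀ * q * q)) →ₐ[Qb] LaurentSeries Qb}
    (hε : IsMidExp M₀ q z ε) :
    ε (algebraMap Qb (modularFunctionFieldBar (M₀ * q * q)) ((q : Qb) ^ 12) /
        uF2 (M₀ * q * q) q (umid_dvd2 M₀ q)) = scaleL z (uSer Qb q) := by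
  have h := umid_eps_uF2 M₀ q hq hqM hz hε
  have h0 : ε (uF2 (M₀ * q * q) q (umid_dvd2 M₀ q)) ≠ 0 :=
    (map_ne_zero ε.toRingHom).mpr (uF2_ne_zero (M₀ * q * q) q (umid_dvd2 M₀ q))
  rw [map_div₀, AlgHom.commutes, ← h, mul_comm, mul_div_assoc, div_self h0, mul_one]

/-- **`q ^ 12 / u₂` is integral for `v_z`.** -/
theorem umid_const_div_uF2_mem_expOv (hq : q.Prime) (hqM : ¬ q ∣ M₀) {z : Qbˣ}
    (hz : IsPrimitiveRoot z q)
    {ε : ↥(modularFunctionFieldBar (M₀ * q * q)) →ₐ[Qb] LaurentSeries Qb}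
    (hε : IsMidExp M₀ q z ε) :
    algebraMap Qb (modularFunctionFieldBar (M₀ * q * q)) ((q : Qb) ^ 12) /
        uF2 (M₀ * q * q) q (umid_dvd2 M₀ q) ∈ expOv ε A := by
  rw [mem_expOv_iff, umid_eps_const_div_uF2 M₀ q hq hqM hz hε,
    ← emb_umidSer A hq.pos z hz.pow_eq_one]
  exact emb_mem_gaussSub IntermediateField.mem_top

/-- **the residue of `q ^ 12 / u₂` at `v_z` is the series `u₁` over the residue field.** -/
theorem umid_expRes_const_div_uF2 (hq : q.Prime) (hqM : ¬ q ∣ M₀) (hA : A.LiesOverPrime q)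
    {z : Qbˣ} (hz : IsPrimitiveRoot z q)
    {ε : ↥(modularFunctionFieldBar (M₀ * q * q)) →ₐ[Qb] LaurentSeries Qb}
    (hε : IsMidExp M₀ q z ε) :
    expRes ε A (algebraMap Qb (modularFunctionFieldBar (M₀ * q * q)) ((q : Qb) ^ 12) /
        uF2 (M₀ * q * q) q (umid_dvd2 M₀ q)) = uSer (IsLocalRing.ResidueField A) q := by
  unfold expRes
  rw [umid_eps_const_div_uF2 M₀ q hq hqM hz hε, ← emb_umidSer A hq.pos z hz.pow_eq_one,
    gaussResFun_emb IntermediateField.mem_top, red_umidSer A hq hA]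

/-! ### in a middle setup -/

section Setup

variable {M₀ q A}
variable {z : Qbˣ} {ε : ↥(modularFunctionFieldBar (M₀ * q * q)) →ₐ[Qb] LaurentSeries Qb}
  {S : ValSetup Qb ↥(modularFunctionFieldBar (M₀ * q * q)) (IsLocalRing.ResidueField A)
    ↥(igField (IsLocalRing.ResidueField A) M₀)}

/-- **UMID**: `u₁ ∈ O_{v_z}`. -/
theorem umid_uF_mem_Ov (hS : IsMidSetup M₀ q A ε S) (hε : IsMidExp M₀ q z ε) :
    uF (M₀ * q * q) q (umid_dvd1 M₀ q) ∈ S.Ov :=
  (hS.mem_iff _).mpr (umid_uF_mem_expOv M₀ q A hε)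

/-- **UMID**: the reduction of `u₁` at `v_z` is the series `u₁` over `k`. -/
theorem umid_coe_red_uF_uSer (hS : IsMidSetup M₀ q A ε S) (hε : IsMidExp M₀ q z ε) :
    ((S.red (uF (M₀ * q * q) q (umid_dvd1 M₀ q)) : ↥(igField (IsLocalRing.ResidueField A) M₀)) :
        LaurentSeries (IsLocalRing.ResidueField A)) = uSer (IsLocalRing.ResidueField A) q := by
  rw [hS.coe_red _ (umid_uF_mem_Ov hS hε), umid_expRes_uF M₀ q A hε]

/-- **UMID**: the reduction of `u₁` at `v_z` is `ssFun = Δ̄ ^ (1 - q)`. -/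
theorem umid_coe_red_uF (hS : IsMidSetup M₀ q A ε S) (hε : IsMidExp M₀ q z ε) (hq : q.Prime)
    (hA : A.LiesOverPrime q) :
    ((S.red (uF (M₀ * q * q) q (umid_dvd1 M₀ q)) : ↥(igField (IsLocalRing.ResidueField A) M₀)) :
        LaurentSeries (IsLocalRing.ResidueField A)) = ssFun (IsLocalRing.ResidueField A) q := by
  haveI : Fact q.Prime := ⟨hq⟩
  haveI : CharP (IsLocalRing.ResidueField A) q := uh_charP_residue A hq hA
  rw [umid_coe_red_uF_uSer hS hε]
  exact uSer_eq_ssFun _ q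

/-- **UMID**: the reduction of `u₁` at `v_z` is transcendental over `k`. -/
theorem umid_transcendental_red_uF (hS : IsMidSetup M₀ q A ε S) (hε : IsMidExp M₀ q z ε)
    (hq : 2 ≤ q) :
    Transcendental (IsLocalRing.ResidueField A)
      (S.red (uF (M₀ * q * q) q (umid_dvd1 M₀ q))) := by
  intro halg
  have h1 := halg.algebraMap (A := LaurentSeries (IsLocalRing.ResidueField A))
  have h2 : algebraMap ↥(igField (IsLocalRing.ResidueField A) M₀)
      (LaurentSeries (IsLocalRing.ResidueField A))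
      (S.red (uF (M₀ * q * q) q (umid_dvd1 M₀ q))) =
      uSer (IsLocalRing.ResidueField A) q := umid_coe_red_uF_uSer hS hε
  rw [h2] at h1
  exact transcendental_uSer q hq h1

/-- **UMID**: `q ^ 12 / u₂ ∈ O_{v_z}`. -/
theorem umid_const_div_uF2_mem_Ov (hS : IsMidSetup M₀ q A ε S) (hε : IsMidExp M₀ q z ε)
    (hq : q.Prime) (hqM : ¬ q ∣ M₀) (hz : IsPrimitiveRoot z q) :
    algebraMap Qb (modularFunctionFieldBar (M₀ * q * q)) ((q : Qb) ^ 12) /
        uF2 (M₀ * q * q) q (umid_dvd2 M₀ q) ∈ S.Ov :=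
  (hS.mem_iff _).mpr (umid_const_div_uF2_mem_expOv M₀ q A hq hqM hz hε)

/-- **UMID**: the reduction of `q ^ 12 / u₂` at `v_z` is the reduction of `u₁`. -/
theorem umid_red_const_div_uF2 (hS : IsMidSetup M₀ q A ε S) (hε : IsMidExp M₀ q z ε)
    (hq : q.Prime) (hqM : ¬ q ∣ M₀) (hA : A.LiesOverPrime q) (hz : IsPrimitiveRoot z q) :
    S.red (algebraMap Qb (modularFunctionFieldBar (M₀ * q * q)) ((q : Qb) ^ 12) /
        uF2 (M₀ * q * q) q (umid_dvd2 M₀ q)) =
      S.red (uF (M₀ * q * q) q (umid_dvd1 M₀ q)) := by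
  apply Subtype.ext
  rw [hS.coe_red _ (umid_const_div_uF2_mem_Ov hS hε hq hqM hz),
    umid_expRes_const_div_uF2 M₀ q A hq hqM hA hz hε, umid_coe_red_uF_uSer hS hε]

/-- **UMID**: the reduction of `q ^ 12 / u₂` at `v_z` is transcendental over `k`. -/
theorem umid_transcendental_red_const_div_uF2 (hS : IsMidSetup M₀ q A ε S)
    (hε : IsMidExp M₀ q z ε) (hq : q.Prime) (hqM : ¬ q ∣ M₀) (hA : A.LiesOverPrime q)
    (hz : IsPrimitiveRoot z q) :
    Transcendental (IsLocalRing.ResidueField A)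
      (S.red (algebraMap Qb (modularFunctionFieldBar (M₀ * q * q)) ((q : Qb) ^ 12) /
        uF2 (M₀ * q * q) q (umid_dvd2 M₀ q))) := by
  rw [umid_red_const_div_uF2 hS hε hq hqM hA hz]
  exact umid_transcendental_red_uF hS hε hq.two_le

end Setup

end Fermat.Agent.S36G
end
end MergeWrap_S36_Seed_UMidRed
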