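import Mathlib
import Fermat.Agent.MUL.S36.Seed.MN2
import Fermat.Agent.MUL.S36.Val.Restr
import Fermat.Agent.MUL.S36.HPVal.ValFamily

section MergeWrap_S36_Seed_MNAt -- from S36/Seed/MNAt.lean

set_option autoImplicit false
set_option linter.style.haveILetI false
set_option linter.unusedSectionVars false
set_option synthInstance.maxHeartbeats 400000

noncomputable section

namespace Fermat.Agent.S36G

open IntermediateField ModularCurve AlgebraicCurve Fermat.Agent.GaussInt Fermat.Agent.AtkinLehner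
  Fermat.Agent.Deuring Fermat.Agent.S28 Fermat.Agent.F3 Fermat.Agent.F3G Fermat.Agent.BadRed
  Fermat.Agent.RR Fermat.Agent.BadRedG

local notation "Qb" => AlgebraicClosure ℚ

-- build-time recipe (helper70): the instance terms are unchanged, only the search order
attribute [local instance 10000] SubalgebraClass.toAlgebra HahnSeries.powerSeriesAlgebra

variable (D : ALData) {M M₀ : ℕ} [NeZero M] [NeZero M₀] (q : ℕ) [NeZero q]
  {A : ValuationSubring Qb}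
  {Mid SS : Type} [Fintype SS]
  {FkM : Mid → Type} [∀ m, Field (FkM m)] [∀ m, Algebra (IsLocalRing.ResidueField A) (FkM m)]
  {FkP : SS → Type} [∀ P, Field (FkP P)] [∀ P, Algebra (IsLocalRing.ResidueField A) (FkP P)]
  (S : ∀ c : Vtx Mid SS, ValSetup Qb (FBar M) (IsLocalRing.ResidueField A)
    (FkOf (modularFunctionFieldFullC (IsLocalRing.ResidueField A) M₀) FkM FkP c))

set_option maxHeartbeats 3200000 in
/-- **the multi-node data of the node family (A)**, level `M = D.Q * D.R`, `M₀ = D.R`. -/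
theorem mnA_data_at [Nonempty SS] (hM : M = D.Q * D.R) (hR : M₀ = D.R) (hQ : q * q = D.Q)
    (hq : q.Prime) (hqM : ¬ q ∣ M₀) (hA : A.LiesOverPrime q)
    (hAeq : ∀ c c' : Vtx Mid SS, (S c).A = (S c').A)
    (hres : ∀ (c c' : Vtx Mid SS) (x : Qb) (h : x ∈ (S c).A) (h' : x ∈ (S c').A),
      (S c).res ⟨x, h⟩ = (S c').res ⟨x, h'⟩)
    (hindep : ∀ c c' : Vtx Mid SS, c ≠ c' → ¬ (S c).Ov ≤ (S c').Ov)
    (hoo : IsGaussSetup M M₀ A (S (Vtx.vert Vrt.oo)))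
    (h2 : q * q ∣ M)
    {ϖ : Qb} (hϖ0 : ϖ ≠ 0) (hϖm : ϖ ∈ A) (hϖr : IsLocalRing.residue A ⟨ϖ, hϖm⟩ = 0)
    -- W-P
    (hu_hor : ∀ P, algebraMap Qb (FBar M) ϖ / uF2 M q h2 ∈ (S (Vtx.hor P)).Ov)
    (htr_hor : ∀ P, Transcendental (IsLocalRing.ResidueField A)
      ((S (Vtx.hor P)).red (algebraMap Qb (FBar M) ϖ / uF2 M q h2)))
    (hdeg_hor : (q - 1) * (q * dedekindPsi M₀) ≤
      ∑ P, Module.finrank (IsLocalRing.ResidueField A)⟮(S (Vtx.hor P)).red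
        (algebraMap Qb (FBar M) ϖ / uF2 M q h2)⟯
        (FkOf (modularFunctionFieldFullC (IsLocalRing.ResidueField A) M₀) FkM FkP
          (Vtx.hor P))) :
    MNData S {Vtx.vert Vrt.oo} (mn1V₂ Mid SS) (uF2 M q h2) ϖ := by
  subst hM hR
  exact mnA_data_mod D q hQ S hq hqM hA hAeq hres hindep hoo hϖ0 hϖm hϖr hu_hor htr_hor
    hdeg_hor

set_option maxHeartbeats 3200000 in
/-- **the multi-node data of the node family (2)**, level `M = D.Q * D.R`, `M₀ = D.R`. -/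
theorem mn2_data_at [Nonempty SS] (hM : M = D.Q * D.R) (hR : M₀ = D.R) (hQ : q * q = D.Q)
    (hq : q.Prime) (hqM : ¬ q ∣ M₀) (hA : A.LiesOverPrime q)
    (hAeq : ∀ c c' : Vtx Mid SS, (S c).A = (S c').A)
    (hres : ∀ (c c' : Vtx Mid SS) (x : Qb) (h : x ∈ (S c).A) (h' : x ∈ (S c').A),
      (S c).res ⟨x, h⟩ = (S c').res ⟨x, h'⟩)
    (hindep : ∀ c c' : Vtx Mid SS, c ≠ c' → ¬ (S c).Ov ≤ (S c').Ov)
    (hoo : IsGaussSetup M M₀ A (S (Vtx.vert Vrt.oo)))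
    (hzero : S (Vtx.vert Vrt.zero) = valSetupZeroAt D hM (S (Vtx.vert Vrt.oo)))
    (h1 : q ∣ M)
    {ϖ₁ : Qb} (hϖ0 : ϖ₁ ≠ 0) (hϖm : (q : Qb) ^ 12 / ϖ₁ ∈ A)
    (hϖr : IsLocalRing.residue A ⟨(q : Qb) ^ 12 / ϖ₁, hϖm⟩ = 0)
    -- W-P
    (hu_hor : ∀ P, uF M q h1 / algebraMap Qb (FBar M) ϖ₁ ∈ (S (Vtx.hor P)).Ov)
    (htr_hor : ∀ P, Transcendental (IsLocalRing.ResidueField A)
      ((S (Vtx.hor P)).red (uF M q h1 / algebraMap Qb (FBar M) ϖ₁)))
    (hdeg_hor : (q - 1) * (q * dedekindPsi M₀) ≤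
      ∑ P, Module.finrank (IsLocalRing.ResidueField A)⟮(S (Vtx.hor P)).red
        (uF M q h1 / algebraMap Qb (FBar M) ϖ₁)⟯
        (FkOf (modularFunctionFieldFullC (IsLocalRing.ResidueField A) M₀) FkM FkP
          (Vtx.hor P))) :
    MNData S (mn1V₂ Mid SS) {Vtx.vert Vrt.zero}
      (uF M q h1 / algebraMap Qb (FBar M) ϖ₁) ((q : Qb) ^ 12 / ϖ₁) := by
  subst hM hR
  rw [valSetupZeroAt_rfl] at hzero
  exact mn2_data_mod D q hQ S hq hqM hA hAeq hres hindep hoo hzero hϖ0 hϖm hϖr hu_hor htr_hor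
    hdeg_hor

end Fermat.Agent.S36G
end
end MergeWrap_S36_Seed_MNAt
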