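import Mathlib
import Fermat.Agent.MUL.S36.Seed.EndsVert
import Fermat.Agent.MUL.S36.Seed.EndsVertHno
import Fermat.Agent.MUL.S36.Seed.MNAt
import Fermat.Agent.MUL.S36.Seed.UMidRed
import Fermat.Agent.MUL.S36.G.ModSS

section MergeWrap_S36_Seed_EndsVertMod -- from S36/Seed/EndsVertMod.lean

set_option autoImplicit false
set_option linter.unusedSectionVars false
set_option linter.unusedVariables false
set_option linter.style.haveILetI false
set_option synthInstance.maxHeartbeats 400000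
set_option maxHeartbeats 1000000

noncomputable section

namespace Fermat.Agent.S36G

open IntermediateField ModularCurve AlgebraicCurve Fermat.Agent.GaussInt Fermat.Agent.AtkinLehner
  Fermat.Agent.Deuring Fermat.Agent.S28 Fermat.Agent.F3 Fermat.Agent.F3G Fermat.Agent.BadRed
  Fermat.Agent.RR Fermat.Agent.BadRedG

local notation "Qb" => AlgebraicClosure ℚ

/-! ### the expansion at `0`, for a single setup -/

section Zero

variable (D : ALData) {M M₀ : ℕ} [NeZero M] [NeZero M₀] (q : ℕ) [NeZero q]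
  {A : ValuationSubring Qb}
  (Soo : ValSetup Qb (FBar M) (IsLocalRing.ResidueField A)
    ↥(modularFunctionFieldFullC (IsLocalRing.ResidueField A) M₀))

/-- **`↑(red_0 (q¹² / u₁)) = ssFun ^ q`**, level `M = D.Q * D.R`. -/
theorem sevAt_coe_red_zero' (hM : M = D.Q * D.R) (hR : M₀ = D.R) (hQ : q * q = D.Q)
    (hq : q.Prime) (hA : A.LiesOverPrime q) (hoo : IsGaussSetup M M₀ A Soo) (h1 : q ∣ M) :
    ((((valSetupZeroAt D hM Soo).red (algebraMap Qb (FBar M) ((q : Qb) ^ 12) / uF M q h1) :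
      ↥(modularFunctionFieldFullC (IsLocalRing.ResidueField A) M₀))) :
        LaurentSeries (IsLocalRing.ResidueField A)) =
      ssFun (IsLocalRing.ResidueField A) q ^ q := by
  subst hM hR
  haveI : NeZero (D.Q * D.R) := ‹NeZero (D.Q * D.R)›
  rw [valSetupZeroAt_rfl]
  have h := red_const_div_uF_zero_pow D q hQ hoo hq hA
  rw [h, SubmonoidClass.coe_pow, coe_red_uF hoo q _ hq hA]

/-- **`↑(red_0 (ϖ₂ / u2)) = ssFun ^ q`**, `ϖ₂ = q¹² / ϖ₁`, `u2 = u₁ / ϖ₁`. -/
theorem sevAt_coe_red_zero (hM : M = D.Q * D.R) (hR : M₀ = D.R) (hQ : q * q = D.Q)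
    (hq : q.Prime) (hA : A.LiesOverPrime q) (hoo : IsGaussSetup M M₀ A Soo) (h1 : q ∣ M)
    {ϖ₁ : Qb} (hϖ0 : ϖ₁ ≠ 0) :
    ((((valSetupZeroAt D hM Soo).red (algebraMap Qb (FBar M) ((q : Qb) ^ 12 / ϖ₁) /
        (uF M q h1 / algebraMap Qb (FBar M) ϖ₁)) :
      ↥(modularFunctionFieldFullC (IsLocalRing.ResidueField A) M₀))) :
        LaurentSeries (IsLocalRing.ResidueField A)) =
      ssFun (IsLocalRing.ResidueField A) q ^ q := by
  rw [seed_const_div_div _ hϖ0]
  exact sevAt_coe_red_zero' D q Soo hM hR hQ hq hA hoo h1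

end Zero

/-! ### the fields at `∞` and `0`, level `M` -/

section Fields

variable (D : ALData) {M M₀ : ℕ} [NeZero M] [NeZero M₀] (q : ℕ) [NeZero q]
  {A : ValuationSubring Qb}
  {Mid SS : Type}
  (FkP : SS → Type) [∀ P, Field (FkP P)] [∀ P, Algebra (IsLocalRing.ResidueField A) (FkP P)]
  (S : ∀ c : Vtx Mid SS, ValSetup Qb (FBar M) (IsLocalRing.ResidueField A)
    (FkOf ↥(modularFunctionFieldFullC (IsLocalRing.ResidueField A) M₀)
      (fun _ : Mid => ↥(igField (IsLocalRing.ResidueField A) M₀)) FkP c))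
  (pv : SS → ∀ v : Vrt Mid, Place (IsLocalRing.ResidueField A)
    (FkOf ↥(modularFunctionFieldFullC (IsLocalRing.ResidueField A) M₀)
      (fun _ : Mid => ↥(igField (IsLocalRing.ResidueField A) M₀)) FkP (Vtx.vert v)))
  (hq : q.Prime) (hA : A.LiesOverPrime q)
  (hoo : IsGaussSetup M M₀ A (S (Vtx.vert Vrt.oo)))
  (hno : ∀ Q : Place (IsLocalRing.ResidueField A)
      ↥(modularFunctionFieldFullC (IsLocalRing.ResidueField A) M₀),
    IsSSPlace (IsLocalRing.ResidueField A) M₀ q Q →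
      ∀ u : ↥(modularFunctionFieldFullC (IsLocalRing.ResidueField A) M₀),
        (u : LaurentSeries (IsLocalRing.ResidueField A)) =
          ssFun (IsLocalRing.ResidueField A) q → Q.ord u = 12)

include hq hA hoo in
/-- **field `zA`**: the zeros of `red_∞ u₂` are the `P_∞`. -/
theorem sevAt_zA (h2 : q * q ∣ M)
    (hsurj : ∀ Q : Place (IsLocalRing.ResidueField A)
        ↥(modularFunctionFieldFullC (IsLocalRing.ResidueField A) M₀),
      IsSSPlace (IsLocalRing.ResidueField A) M₀ q Q → ∃ P, pv P Vrt.oo = Q)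
    (Q : Place (IsLocalRing.ResidueField A)
      (FkOf ↥(modularFunctionFieldFullC (IsLocalRing.ResidueField A) M₀)
        (fun _ : Mid => ↥(igField (IsLocalRing.ResidueField A) M₀)) FkP (Vtx.vert Vrt.oo)))
    (hQ : 0 < Q.ord ((S (Vtx.vert Vrt.oo)).red (uF2 M q h2))) :
    ∃ P, pv P Vrt.oo = Q := by
  haveI : IsAlgClosed (IsLocalRing.ResidueField A) := isAlgClosed_residue A
  haveI : CharP (IsLocalRing.ResidueField A) q := uh_charP_residue A hq hA
  exact sev_zA M₀ q hq (IsLocalRing.ResidueField A) FkP S pv _ rfl hsurj _ _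
    (coe_red_uF hoo q (seedU_dvd h2) hq hA) (coe_red_uF2 hoo q h2 hq hA) Q hQ

include hq hA hoo hno in
/-- **field `oA`**, `wA = 12 q`. -/
theorem sevAt_oA (h2 : q * q ∣ M)
    (hss : ∀ P, IsSSPlace (IsLocalRing.ResidueField A) M₀ q (pv P Vrt.oo)) (P : SS) :
    (pv P Vrt.oo).ord ((S (Vtx.vert Vrt.oo)).red (uF2 M q h2)) = 12 * (q : ℤ) := by
  haveI : IsAlgClosed (IsLocalRing.ResidueField A) := isAlgClosed_residue A
  haveI : CharP (IsLocalRing.ResidueField A) q := uh_charP_residue A hq hA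
  exact sev_oA M₀ q (IsLocalRing.ResidueField A) FkP S pv _ hno rfl hss _ _
    (coe_red_uF hoo q (seedU_dvd h2) hq hA) (coe_red_uF2 hoo q h2 hq hA) P

include hq hA hoo in
/-- **field `z1oo`**: the zeros of `red_∞ u₁` are the `P_∞`. -/
theorem sevAt_z1oo (h1 : q ∣ M)
    (hsurj : ∀ Q : Place (IsLocalRing.ResidueField A)
        ↥(modularFunctionFieldFullC (IsLocalRing.ResidueField A) M₀),
      IsSSPlace (IsLocalRing.ResidueField A) M₀ q Q → ∃ P, pv P Vrt.oo = Q)
    (Q : Place (IsLocalRing.ResidueField A)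
      (FkOf ↥(modularFunctionFieldFullC (IsLocalRing.ResidueField A) M₀)
        (fun _ : Mid => ↥(igField (IsLocalRing.ResidueField A) M₀)) FkP (Vtx.vert Vrt.oo)))
    (hQ : 0 < Q.ord ((S (Vtx.vert Vrt.oo)).red (uF M q h1))) :
    ∃ P, pv P Vrt.oo = Q := by
  haveI : IsAlgClosed (IsLocalRing.ResidueField A) := isAlgClosed_residue A
  haveI : CharP (IsLocalRing.ResidueField A) q := uh_charP_residue A hq hA
  exact sev_z1oo M₀ q (IsLocalRing.ResidueField A) FkP S pv _ rfl hsurj _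
    (coe_red_uF hoo q h1 hq hA) Q hQ

include hq hA hoo hno in
/-- **field `o1oo`**, `w1 = 12`. -/
theorem sevAt_o1oo (h1 : q ∣ M)
    (hss : ∀ P, IsSSPlace (IsLocalRing.ResidueField A) M₀ q (pv P Vrt.oo)) (P : SS) :
    (pv P Vrt.oo).ord ((S (Vtx.vert Vrt.oo)).red (uF M q h1)) = 12 := by
  haveI : IsAlgClosed (IsLocalRing.ResidueField A) := isAlgClosed_residue A
  haveI : CharP (IsLocalRing.ResidueField A) q := uh_charP_residue A hq hA
  exact sev_o1oo M₀ q (IsLocalRing.ResidueField A) FkP S pv _ hno rfl hss _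
    (coe_red_uF hoo q h1 hq hA) P

include hq hA hoo in
/-- **field `z2`**: the zeros of `red_0 (ϖ₂ / u2)` are the `P_0` (`u2 = u₁ / ϖ₁`,
`ϖ₂ = q¹² / ϖ₁`). -/
theorem sevAt_z2 (hM : M = D.Q * D.R) (hR : M₀ = D.R) (hQ' : q * q = D.Q)
    (hzero : S (Vtx.vert Vrt.zero) = valSetupZeroAt D hM (S (Vtx.vert Vrt.oo)))
    (h1 : q ∣ M) {ϖ₁ : Qb} (hϖ0 : ϖ₁ ≠ 0)
    (hsurj : ∀ Q : Place (IsLocalRing.ResidueField A)
        ↥(modularFunctionFieldFullC (IsLocalRing.ResidueField A) M₀),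
      IsSSPlace (IsLocalRing.ResidueField A) M₀ q Q → ∃ P, pv P Vrt.zero = Q)
    (Q : Place (IsLocalRing.ResidueField A)
      (FkOf ↥(modularFunctionFieldFullC (IsLocalRing.ResidueField A) M₀)
        (fun _ : Mid => ↥(igField (IsLocalRing.ResidueField A) M₀)) FkP (Vtx.vert Vrt.zero)))
    (hQ : 0 < Q.ord ((S (Vtx.vert Vrt.zero)).red
      (algebraMap Qb (FBar M) ((q : Qb) ^ 12 / ϖ₁) /
        (uF M q h1 / algebraMap Qb (FBar M) ϖ₁)))) :
    ∃ P, pv P Vrt.zero = Q := by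
  haveI : IsAlgClosed (IsLocalRing.ResidueField A) := isAlgClosed_residue A
  haveI : CharP (IsLocalRing.ResidueField A) q := uh_charP_residue A hq hA
  exact sev_z2 M₀ q hq (IsLocalRing.ResidueField A) FkP S pv _ hzero hsurj _ _
    (coe_red_uF hoo q h1 hq hA)
    (sevAt_coe_red_zero D q (S (Vtx.vert Vrt.oo)) hM hR hQ' hq hA hoo h1 hϖ0) Q hQ

include hq hA hoo hno in
/-- **field `o2`**, `w2 = 12 q`. -/
theorem sevAt_o2 (hM : M = D.Q * D.R) (hR : M₀ = D.R) (hQ' : q * q = D.Q)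
    (hzero : S (Vtx.vert Vrt.zero) = valSetupZeroAt D hM (S (Vtx.vert Vrt.oo)))
    (h1 : q ∣ M) {ϖ₁ : Qb} (hϖ0 : ϖ₁ ≠ 0)
    (hss : ∀ P, IsSSPlace (IsLocalRing.ResidueField A) M₀ q (pv P Vrt.zero)) (P : SS) :
    (pv P Vrt.zero).ord ((S (Vtx.vert Vrt.zero)).red
      (algebraMap Qb (FBar M) ((q : Qb) ^ 12 / ϖ₁) /
        (uF M q h1 / algebraMap Qb (FBar M) ϖ₁))) = 12 * (q : ℤ) := by
  haveI : IsAlgClosed (IsLocalRing.ResidueField A) := isAlgClosed_residue A
  haveI : CharP (IsLocalRing.ResidueField A) q := uh_charP_residue A hq hA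
  exact sev_o2 M₀ q (IsLocalRing.ResidueField A) FkP S pv _ hno hzero hss _ _
    (coe_red_uF hoo q h1 hq hA)
    (sevAt_coe_red_zero D q (S (Vtx.vert Vrt.oo)) hM hR hQ' hq hA hoo h1 hϖ0) P

end Fields

/-! ### the fields at the middle vertices, level `M₀ * q * q` -/

section MidFields

variable (M₀ q : ℕ) [NeZero M₀] [NeZero q] {A : ValuationSubring Qb}
  {Mid SS : Type}
  (FkP : SS → Type) [∀ P, Field (FkP P)] [∀ P, Algebra (IsLocalRing.ResidueField A) (FkP P)]
  (S : ∀ c : Vtx Mid SS, ValSetup Qb (FBar (M₀ * q * q)) (IsLocalRing.ResidueField A)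
    (FkOf ↥(modularFunctionFieldFullC (IsLocalRing.ResidueField A) M₀)
      (fun _ : Mid => ↥(igField (IsLocalRing.ResidueField A) M₀)) FkP c))
  (pv : SS → ∀ v : Vrt Mid, Place (IsLocalRing.ResidueField A)
    (FkOf ↥(modularFunctionFieldFullC (IsLocalRing.ResidueField A) M₀)
      (fun _ : Mid => ↥(igField (IsLocalRing.ResidueField A) M₀)) FkP (Vtx.vert v)))
  (hq : q.Prime) (hqM : ¬ q ∣ M₀) (hA : A.LiesOverPrime q)
  [IsAlgClosed (IsLocalRing.ResidueField A)] [CharP (IsLocalRing.ResidueField A) q]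
  (hoo : IsGaussSetup (M₀ * q * q) M₀ A (S (Vtx.vert Vrt.oo)))
  {z : Mid → Qbˣ} {ε : Mid → (↥(modularFunctionFieldBar (M₀ * q * q)) →ₐ[Qb] LaurentSeries Qb)}
  (hε : ∀ m, IsMidExp M₀ q (z m) (ε m))
  (hmid : ∀ m, IsMidSetup M₀ q A (ε m) (S (Vtx.vert (Vrt.mid m))))
  (hno : ∀ Q : Place (IsLocalRing.ResidueField A)
      ↥(modularFunctionFieldFullC (IsLocalRing.ResidueField A) M₀),
    IsSSPlace (IsLocalRing.ResidueField A) M₀ q Q →
      ∀ u : ↥(modularFunctionFieldFullC (IsLocalRing.ResidueField A) M₀),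
        (u : LaurentSeries (IsLocalRing.ResidueField A)) =
          ssFun (IsLocalRing.ResidueField A) q → Q.ord u = 12)

include hqM hA hoo hε hmid hno in
/-- **field `z1m`**: the zeros of `red_m u₁` are the `P_m`. -/
theorem sevAt_z1m
    (hsurj : ∀ (m : Mid) (Q : Place (IsLocalRing.ResidueField A)
        ↥(modularFunctionFieldFullC (IsLocalRing.ResidueField A) M₀)),
      IsSSPlace (IsLocalRing.ResidueField A) M₀ q Q → ∃ P,
        Place.restrictAlong (igIncl (IsLocalRing.ResidueField A) M₀)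
          (sev_isIntegral M₀ q hq (IsLocalRing.ResidueField A)) (pv P (Vrt.mid m)) = Q)
    (m : Mid)
    (Q : Place (IsLocalRing.ResidueField A)
      (FkOf ↥(modularFunctionFieldFullC (IsLocalRing.ResidueField A) M₀)
        (fun _ : Mid => ↥(igField (IsLocalRing.ResidueField A) M₀)) FkP
        (Vtx.vert (Vrt.mid m))))
    (hQ : 0 < Q.ord ((S (Vtx.vert (Vrt.mid m))).red
      (uF (M₀ * q * q) q (umid_dvd1 M₀ q)))) :
    ∃ P, pv P (Vrt.mid m) = Q :=
  sev_z1m M₀ q hq hqM (IsLocalRing.ResidueField A) FkP S pv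
    (fun m => S (Vtx.vert (Vrt.mid m))) hno (fun _ => rfl) hsurj _ _
    (coe_red_uF hoo q (umid_dvd1 M₀ q) hq hA)
    (fun m => umid_coe_red_uF (hmid m) (hε m) hq hA) m Q hQ

include hqM hA hoo hε hmid hno in
/-- **field `o1m`**, `wM = 12 midDeg q`. -/
theorem sevAt_o1m
    (hss : ∀ P m, IsSSPlace (IsLocalRing.ResidueField A) M₀ q
      (Place.restrictAlong (igIncl (IsLocalRing.ResidueField A) M₀)
        (sev_isIntegral M₀ q hq (IsLocalRing.ResidueField A)) (pv P (Vrt.mid m))))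
    (P : SS) (m : Mid) :
    (pv P (Vrt.mid m)).ord ((S (Vtx.vert (Vrt.mid m))).red
      (uF (M₀ * q * q) q (umid_dvd1 M₀ q))) = 12 * (midDeg q : ℤ) :=
  sev_o1m M₀ q hq hqM (IsLocalRing.ResidueField A) FkP S pv
    (fun m => S (Vtx.vert (Vrt.mid m))) hno (fun _ => rfl) hss _ _
    (coe_red_uF hoo q (umid_dvd1 M₀ q) hq hA)
    (fun m => umid_coe_red_uF (hmid m) (hε m) hq hA) P m

end MidFields

/-! ### `SS = ModSS A M₀ q`, `pv = modPv (fun P _ => sevMidPt .. P.place)` -/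

section ModPv

variable (M₀ q : ℕ) {A : ValuationSubring Qb} (hq : q.Prime) (hqM : ¬ q ∣ M₀)
  [IsAlgClosed (IsLocalRing.ResidueField A)] [CharP (IsLocalRing.ResidueField A) q]
  (Mid : Type)
  (FkP : ModSS A M₀ q → Type) [∀ P, Field (FkP P)]
  [∀ P, Algebra (IsLocalRing.ResidueField A) (FkP P)]

/-- **the field `pv`** for `SS = ModSS A M₀ q`: `P_∞ = P_0 = P`, `P_m` = the place of the Igusa
component over `P`. -/
def sevModPv : ∀ (_ : ModSS A M₀ q) (v : Vrt Mid),
    Place (IsLocalRing.ResidueField A)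
      (FkOf ↥(modularFunctionFieldFullC (IsLocalRing.ResidueField A) M₀)
        (fun _ : Mid => ↥(igField (IsLocalRing.ResidueField A) M₀)) FkP (Vtx.vert v)) :=
  modPv (FkM := fun _ : Mid => ↥(igField (IsLocalRing.ResidueField A) M₀)) (FkP := FkP)
    (fun P _ => sevMidPt M₀ q hq hqM (IsLocalRing.ResidueField A) P.place)

theorem sevModPv_oo (P : ModSS A M₀ q) :
    sevModPv M₀ q hq hqM Mid FkP P Vrt.oo = P.place := rfl

theorem sevModPv_zero (P : ModSS A M₀ q) :
    sevModPv M₀ q hq hqM Mid FkP P Vrt.zero = P.place := rfl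

theorem sevModPv_mid (P : ModSS A M₀ q) (m : Mid) :
    sevModPv M₀ q hq hqM Mid FkP P (Vrt.mid m) =
      sevMidPt M₀ q hq hqM (IsLocalRing.ResidueField A) P.place := rfl

theorem sevModPv_mid_restrict (P : ModSS A M₀ q) (m : Mid) :
    Place.restrictAlong (igIncl (IsLocalRing.ResidueField A) M₀)
      (sev_isIntegral M₀ q hq (IsLocalRing.ResidueField A))
      (sevModPv M₀ q hq hqM Mid FkP P (Vrt.mid m)) = P.place :=
  sev_restrict_midPt M₀ q hq hqM (IsLocalRing.ResidueField A) P.place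

/-- **field `pv_inj`**. -/
theorem sevModPv_inj (v : Vrt Mid) (P P' : ModSS A M₀ q)
    (h : sevModPv M₀ q hq hqM Mid FkP P v = sevModPv M₀ q hq hqM Mid FkP P' v) : P = P' :=
  sev_pv_inj M₀ q hq (IsLocalRing.ResidueField A) FkP (sevModPv M₀ q hq hqM Mid FkP)
    ModSS.place ModSS.place_injective (fun _ => rfl) (fun _ => rfl)
    (fun P m => sevModPv_mid_restrict M₀ q hq hqM Mid FkP P m) v P P' h

theorem sevModPv_surj_oo (Q : Place (IsLocalRing.ResidueField A)
      ↥(modularFunctionFieldFullC (IsLocalRing.ResidueField A) M₀))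
    (hQ : IsSSPlace (IsLocalRing.ResidueField A) M₀ q Q) :
    ∃ P, sevModPv M₀ q hq hqM Mid FkP P Vrt.oo = Q :=
  ModSS.exists_place_eq Q hQ

theorem sevModPv_ss_oo (P : ModSS A M₀ q) :
    IsSSPlace (IsLocalRing.ResidueField A) M₀ q (sevModPv M₀ q hq hqM Mid FkP P Vrt.oo) :=
  P.isSS

theorem sevModPv_surj_zero (Q : Place (IsLocalRing.ResidueField A)
      ↥(modularFunctionFieldFullC (IsLocalRing.ResidueField A) M₀))
    (hQ : IsSSPlace (IsLocalRing.ResidueField A) M₀ q Q) :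
    ∃ P, sevModPv M₀ q hq hqM Mid FkP P Vrt.zero = Q :=
  ModSS.exists_place_eq Q hQ

theorem sevModPv_ss_zero (P : ModSS A M₀ q) :
    IsSSPlace (IsLocalRing.ResidueField A) M₀ q (sevModPv M₀ q hq hqM Mid FkP P Vrt.zero) :=
  P.isSS

theorem sevModPv_surj_mid (m : Mid) (Q : Place (IsLocalRing.ResidueField A)
      ↥(modularFunctionFieldFullC (IsLocalRing.ResidueField A) M₀))
    (hQ : IsSSPlace (IsLocalRing.ResidueField A) M₀ q Q) :
    ∃ P, Place.restrictAlong (igIncl (IsLocalRing.ResidueField A) M₀)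
      (sev_isIntegral M₀ q hq (IsLocalRing.ResidueField A))
      (sevModPv M₀ q hq hqM Mid FkP P (Vrt.mid m)) = Q := by
  obtain ⟨P, hP⟩ := ModSS.exists_place_eq Q hQ
  exact ⟨P, (sevModPv_mid_restrict M₀ q hq hqM Mid FkP P m).trans hP⟩

theorem sevModPv_ss_mid (P : ModSS A M₀ q) (m : Mid) :
    IsSSPlace (IsLocalRing.ResidueField A) M₀ q
      (Place.restrictAlong (igIncl (IsLocalRing.ResidueField A) M₀)
        (sev_isIntegral M₀ q hq (IsLocalRing.ResidueField A))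
        (sevModPv M₀ q hq hqM Mid FkP P (Vrt.mid m))) := by
  rw [sevModPv_mid_restrict]
  exact P.isSS

end ModPv

end Fermat.Agent.S36G
end
end MergeWrap_S36_Seed_EndsVertMod
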