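import Mathlib
import Fermat.Agent.MUL.Lib.Deuring.Basic
import Fermat.Agent.MUL.S36.HPVal.Defs
import Fermat.Agent.MUL.Orig.Lib.FF.Value
import Fermat.Agent.MUL.Lib.BadRed.KroneckerCharpolyLQPole

section MergeWrap_S36_Seed_NodeConst -- from S36/Seed/NodeConst.lean

set_option autoImplicit false
set_option linter.style.haveILetI false
set_option linter.unusedSectionVars false

noncomputable section

namespace Fermat.Agent.NodeConst

open Polynomial

variable {F : Type*} [Field F]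

/-- a root of a monic polynomial with coefficients in a valuation ring lies in the ring. -/
theorem nc_mem_of_monic_root (V : ValuationSubring F) (G : (↥V)[X]) (hG : G.Monic) (t : F)
    (ht : (G.map V.subtype).eval t = 0) : t ∈ V := by
  have hint : IsIntegral V t := ⟨G, hG, by rwa [Polynomial.eval₂_eq_eval_map]⟩
  obtain ⟨y, hy⟩ := (IsIntegrallyClosed.isIntegral_iff (R := V) (K := F)).1 hint
  rw [← hy]
  exact y.2

/-- the residue of a root, when the reduced polynomial is `(X - c) ^ n`. -/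
theorem nc_res_of_monic_root {κ : Type*} [CommRing κ] [IsReduced κ] (V : ValuationSubring F)
    (ρ : V →+* κ) (G : (↥V)[X]) (t : F) (ht : t ∈ V)
    (hroot : (G.map V.subtype).eval t = 0) (c : κ) (n : ℕ)
    (hred : G.map ρ = (X - C c) ^ n) : ρ ⟨t, ht⟩ = c := by
  have h1 : G.eval (⟨t, ht⟩ : V) = 0 := by
    apply Subtype.ext
    have := Polynomial.eval_map V.subtype (⟨t, ht⟩ : V) (p := G)
    have h2 : (G.map V.subtype).eval (V.subtype ⟨t, ht⟩) = V.subtype (G.eval ⟨t, ht⟩) := by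
      rw [Polynomial.eval_map, Polynomial.eval₂_at_apply]
    have h3 : V.subtype ⟨t, ht⟩ = t := rfl
    rw [h3, hroot] at h2
    exact h2.symm
  have h4 : (G.map ρ).eval (ρ ⟨t, ht⟩) = 0 := by
    rw [Polynomial.eval_map, Polynomial.eval₂_at_apply, h1, map_zero]
  rw [hred, Polynomial.eval_pow, Polynomial.eval_sub, Polynomial.eval_X, Polynomial.eval_C] at h4
  have h5 : IsNilpotent (ρ ⟨t, ht⟩ - c) := ⟨n, h4⟩
  exact sub_eq_zero.1 (IsReduced.eq_zero _ h5)

variable {E : Type*} [Field E] [Algebra E F]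

/-- **Regular at the node ⟹ constant on the horizontal valuation.** -/
theorem nc_const {k κ : Type*} [CommRing k] [CommRing κ] [IsReduced κ] [Algebra k κ]
    (V : ValuationSubring F) (ρ : V →+* κ) (B : Subring E) (ev : B →+* k)
    (hB : ∀ b : B, ∃ hb : algebraMap E F (b : E) ∈ V, ρ ⟨_, hb⟩ = algebraMap k κ (ev b))
    (G : (↥B)[X]) (hG : G.Monic) (t : F)
    (hroot : ((G.map B.subtype).map (algebraMap E F)).eval t = 0) (c : k) (n : ℕ)
    (hev : G.map ev = (X - C c) ^ n) :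
    ∃ ht : t ∈ V, ρ ⟨t, ht⟩ = algebraMap k κ c := by
  -- the inclusion `B → V`
  let incl : B →+* V :=
    { toFun := fun b => ⟨algebraMap E F (b : E), (hB b).1⟩
      map_one' := by
        apply Subtype.ext
        simp
      map_mul' := fun x y => by
        apply Subtype.ext
        simp
      map_zero' := by
        apply Subtype.ext
        simp
      map_add' := fun x y => by
        apply Subtype.ext
        simp }
  have hincl : V.subtype.comp incl = (algebraMap E F).comp B.subtype := by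
    ext b
    rfl
  have hρ : ρ.comp incl = (algebraMap k κ).comp ev := by
    ext b
    exact (hB b).2
  set G' : (↥V)[X] := G.map incl with hG'
  have hG'm : G'.Monic := hG.map incl
  have hG'root : (G'.map V.subtype).eval t = 0 := by
    rw [hG', Polynomial.map_map, hincl, ← Polynomial.map_map]
    exact hroot
  have ht : t ∈ V := nc_mem_of_monic_root V G' hG'm t hG'root
  refine ⟨ht, ?_⟩
  refine nc_res_of_monic_root V ρ G' t ht hG'root (algebraMap k κ c) n ?_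
  rw [hG', Polynomial.map_map, hρ, ← Polynomial.map_map, hev, Polynomial.map_pow,
    Polynomial.map_sub, Polynomial.map_X, Polynomial.map_C]

end Fermat.Agent.NodeConst
end
end MergeWrap_S36_Seed_NodeConst

section MergeWrap_S36_Seed_UHorAbs -- from S36/Seed/UHorAbs.lean

set_option autoImplicit false
set_option linter.style.haveILetI false
set_option linter.unusedSectionVars false

noncomputable section

namespace Fermat.Agent.S36G

open Fermat.Agent.Deuring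

variable {K F k Fk : Type*} [Field K] [Field F] [Algebra K F] [Field k] [Field Fk] [Algebra k Fk]

/-- **the reduction of `u / ϖ ^ n`** from `u R ^ n = H Z ^ n`. -/
theorem uhor_red (S : ValSetup K F k Fk) {u H R Z : F} {ϖ : K} (hϖ : ϖ ≠ 0) (n : ℕ)
    (hrel : u * R ^ n = H * Z ^ n) {cH cR : k} (hcR : cR ≠ 0)
    (hH : H ∈ S.Ov) (hHr : S.red H = algebraMap k Fk cH)
    (hRr : S.red R = algebraMap k Fk cR)
    (hZ : Z / algebraMap K F ϖ ∈ S.Ov) :
    u / algebraMap K F (ϖ ^ n) ∈ S.Ov ∧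
      S.red (u / algebraMap K F (ϖ ^ n)) =
        algebraMap k Fk (cH / cR ^ n) * S.red (Z / algebraMap K F ϖ) ^ n := by
  have hcRF : algebraMap k Fk cR ≠ 0 := (map_ne_zero (algebraMap k Fk)).mpr hcR
  have hRne : S.red R ≠ 0 := by rw [hRr]; exact hcRF
  have hR : R ∈ S.Ov := S.mem_of_red_ne_zero hRne
  have hRi : R⁻¹ ∈ S.Ov := S.inv_mem_of_red_ne_zero hRne
  have hR0 : R ≠ 0 := S.ne_zero_of_red_ne_zero hRne
  have hϖF : algebraMap K F ϖ ≠ 0 := (map_ne_zero (algebraMap K F)).mpr hϖ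
  have hu : u / algebraMap K F (ϖ ^ n) = H * (Z / algebraMap K F ϖ) ^ n * (R⁻¹) ^ n := by
    have h1 : u = H * Z ^ n * (R⁻¹) ^ n := by
      rw [inv_pow, ← hrel, mul_assoc, mul_inv_cancel₀ (pow_ne_zero n hR0), mul_one]
    rw [h1, map_pow, div_pow]
    field_simp
  rw [hu]
  refine ⟨mul_mem (mul_mem hH (pow_mem hZ n)) (pow_mem hRi n), ?_⟩
  rw [S.red_mul (mul_mem hH (pow_mem hZ n)) (pow_mem hRi n), S.red_mul hH (pow_mem hZ n),
    S.red_pow hZ, S.red_pow hRi, S.red_inv hR hRi hR0, hHr, hRr, map_div₀, map_pow,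
    div_eq_mul_inv, inv_pow]
  ring

/-- the uniformiser `ϖ` is in the maximal ideal: multiples of `ϖ` reduce to `0`. -/
theorem uhor_red_mul_const (S : ValSetup K F k Fk) {ϖ : K} (hϖA : ϖ ∈ S.A)
    (hϖr : S.res ⟨ϖ, hϖA⟩ = 0) {x : F} (hx : x ∈ S.Ov) :
    algebraMap K F ϖ * x ∈ S.Ov ∧ S.red (algebraMap K F ϖ * x) = 0 := by
  refine ⟨mul_mem (S.algebraMap_mem hϖA) hx, ?_⟩
  rw [S.red_mul (S.algebraMap_mem hϖA) hx, S.red_algebraMap hϖA, hϖr, map_zero, zero_mul]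

/-- **first copy**: `(T₀ - T₁ ^ q) / ϖ` reduces to `red W`. -/
theorem uhor_Z_first (S : ValSetup K F k Fk) {q : ℕ} (hq : 2 ≤ q) {a ϖ : K} (hϖ : ϖ ≠ 0)
    (hϖA : ϖ ∈ S.A) (hϖr : S.res ⟨ϖ, hϖA⟩ = 0) (haA : a ∈ S.A) (ha : a ^ (q ^ 2) = a)
    {T₀ T₁ : F}
    (hW : (T₀ - algebraMap K F a) / algebraMap K F ϖ ∈ S.Ov)
    (hY : (T₁ - algebraMap K F (a ^ q)) / algebraMap K F (ϖ ^ q) ∈ S.Ov) :
    (T₀ - T₁ ^ q) / algebraMap K F ϖ ∈ S.Ov ∧
      S.red ((T₀ - T₁ ^ q) / algebraMap K F ϖ) =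
        S.red ((T₀ - algebraMap K F a) / algebraMap K F ϖ) := by
  have hϖF : algebraMap K F ϖ ≠ 0 := (map_ne_zero (algebraMap K F)).mpr hϖ
  set W := (T₀ - algebraMap K F a) / algebraMap K F ϖ with hWdef
  set Y := (T₁ - algebraMap K F (a ^ q)) / algebraMap K F (ϖ ^ q) with hYdef
  have hϖq : algebraMap K F (ϖ ^ q) ≠ 0 := (map_ne_zero (algebraMap K F)).mpr (pow_ne_zero q hϖ)
  have hT₁ : T₁ = algebraMap K F (a ^ q) + algebraMap K F (ϖ ^ q) * Y := by
    rw [hYdef]; field_simp; ring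
  have haqO : algebraMap K F (a ^ q) ∈ S.Ov := S.algebraMap_mem (pow_mem haA q)
  have hϖqO : algebraMap K F (ϖ ^ q) ∈ S.Ov := S.algebraMap_mem (pow_mem hϖA q)
  have hT₁O : T₁ ∈ S.Ov := by
    rw [hT₁]; exact add_mem haqO (mul_mem hϖqO hY)
  -- `T₁ ^ q - a = (T₁ - a ^ q) * B` in `O`
  obtain ⟨B, hB⟩ := sub_dvd_pow_sub_pow (⟨T₁, hT₁O⟩ : S.Ov) ⟨algebraMap K F (a ^ q), haqO⟩ q
  have hB' : T₁ ^ q - algebraMap K F a = (T₁ - algebraMap K F (a ^ q)) * (B : F) := by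
    have h1 : T₁ ^ q - (algebraMap K F (a ^ q)) ^ q =
        (T₁ - algebraMap K F (a ^ q)) * (B : F) := by
      have := congrArg (fun x : S.Ov => (x : F)) hB
      simpa using this
    have h2 : (algebraMap K F (a ^ q)) ^ q = algebraMap K F a := by
      rw [← map_pow, ← pow_mul, ← sq, ha]
    rw [← h2]
    exact h1
  have hq1 : q = (q - 1) + 1 := by omega
  have hkey : (T₀ - T₁ ^ q) / algebraMap K F ϖ =
      W - algebraMap K F ϖ * (algebraMap K F (ϖ ^ (q - 2)) * Y * (B : F)) := by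
    have h3 : T₀ - T₁ ^ q = (T₀ - algebraMap K F a) - (T₁ ^ q - algebraMap K F a) := by ring
    have h4 : T₁ - algebraMap K F (a ^ q) = algebraMap K F (ϖ ^ q) * Y := by
      rw [hT₁]; ring
    have h5 : algebraMap K F (ϖ ^ q) = algebraMap K F ϖ * (algebraMap K F ϖ *
        algebraMap K F (ϖ ^ (q - 2))) := by
      rw [← map_mul, ← map_mul, ← pow_succ', ← pow_succ']
      congr 2
      omega
    rw [h3, hB', h4, h5, sub_div, hWdef]
    congr 1
    field_simp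
  have hE : algebraMap K F (ϖ ^ (q - 2)) * Y * (B : F) ∈ S.Ov :=
    mul_mem (mul_mem (S.algebraMap_mem (pow_mem hϖA _)) hY) B.2
  obtain ⟨hm, hr⟩ := uhor_red_mul_const S hϖA hϖr hE
  rw [hkey]
  refine ⟨sub_mem hW hm, ?_⟩
  rw [S.red_sub hW hm, hr, sub_zero]

/-- **second copy**: `(T₁ - T₂ ^ q) / ϖ ^ q` reduces to `red Y - (red Zc) ^ q`. -/
theorem uhor_Z_second (S : ValSetup K F k Fk) {q : ℕ} (hq : q.Prime) {a ϖ : K} (hϖ : ϖ ≠ 0)
    (hϖA : ϖ ∈ S.A) (hϖr : S.res ⟨ϖ, hϖA⟩ = 0) (hϖq : ϖ ^ (q + 1) = (q : K)) (haA : a ∈ S.A)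
    {T₁ T₂ : F}
    (hY : (T₁ - algebraMap K F (a ^ q)) / algebraMap K F (ϖ ^ q) ∈ S.Ov)
    (hZc : (T₂ - algebraMap K F a) / algebraMap K F ϖ ∈ S.Ov) :
    (T₁ - T₂ ^ q) / algebraMap K F (ϖ ^ q) ∈ S.Ov ∧
      S.red ((T₁ - T₂ ^ q) / algebraMap K F (ϖ ^ q)) =
        S.red ((T₁ - algebraMap K F (a ^ q)) / algebraMap K F (ϖ ^ q)) -
          S.red ((T₂ - algebraMap K F a) / algebraMap K F ϖ) ^ q := by
  have hϖF : algebraMap K F ϖ ≠ 0 := (map_ne_zero (algebraMap K F)).mpr hϖ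
  have hϖqF : algebraMap K F (ϖ ^ q) ≠ 0 :=
    (map_ne_zero (algebraMap K F)).mpr (pow_ne_zero q hϖ)
  set Y := (T₁ - algebraMap K F (a ^ q)) / algebraMap K F (ϖ ^ q) with hYdef
  set Zc := (T₂ - algebraMap K F a) / algebraMap K F ϖ with hZdef
  have haO : algebraMap K F a ∈ S.Ov := S.algebraMap_mem haA
  have hϖO : algebraMap K F ϖ ∈ S.Ov := S.algebraMap_mem hϖA
  have hT₂ : T₂ = algebraMap K F ϖ * Zc + algebraMap K F a := by
    rw [hZdef]; field_simp; ring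
  -- `(x + y) ^ q = x ^ q + y ^ q + q x y r` in `O`
  obtain ⟨r, hr⟩ := exists_add_pow_prime_eq hq
    ((⟨algebraMap K F ϖ, hϖO⟩ : S.Ov) * ⟨Zc, hZc⟩) (⟨algebraMap K F a, haO⟩ : S.Ov)
  have hr' : T₂ ^ q = (algebraMap K F ϖ * Zc) ^ q + (algebraMap K F a) ^ q +
      (q : F) * (algebraMap K F ϖ * Zc) * algebraMap K F a * (r : F) := by
    have h1 : (algebraMap K F ϖ * Zc + algebraMap K F a) ^ q =
        (algebraMap K F ϖ * Zc) ^ q + (algebraMap K F a) ^ q +
          (q : F) * (algebraMap K F ϖ * Zc) * algebraMap K F a * (r : F) := by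
      have := congrArg (fun x : S.Ov => (x : F)) hr
      simpa using this
    rw [hT₂]
    exact h1
  have hqF : (q : F) = algebraMap K F ϖ ^ (q + 1) := by
    rw [← map_pow, hϖq, map_natCast]
  have hkey : (T₁ - T₂ ^ q) / algebraMap K F (ϖ ^ q) =
      Y - Zc ^ q - algebraMap K F ϖ *
        (algebraMap K F ϖ * Zc * algebraMap K F a * (r : F)) := by
    have h3 : T₁ - algebraMap K F (a ^ q) = algebraMap K F (ϖ ^ q) * Y := by
      rw [hYdef]; field_simp
    have h4 : T₁ - T₂ ^ q = algebraMap K F (ϖ ^ q) * (Y - Zc ^ q - algebraMap K F ϖ *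
        (algebraMap K F ϖ * Zc * algebraMap K F a * (r : F))) := by
      have h5 : T₁ - T₂ ^ q = (T₁ - algebraMap K F (a ^ q)) -
          (T₂ ^ q - algebraMap K F (a ^ q)) := by ring
      rw [h5, h3, hr', hqF, map_pow, map_pow]
      ring
    rw [h4, mul_div_cancel_left₀ _ hϖqF]
  have hE : algebraMap K F ϖ * Zc * algebraMap K F a * (r : F) ∈ S.Ov :=
    mul_mem (mul_mem (mul_mem hϖO hZc) haO) r.2
  obtain ⟨hm, hrz⟩ := uhor_red_mul_const S hϖA hϖr hE
  rw [hkey]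
  refine ⟨sub_mem (sub_mem hY (pow_mem hZc q)) hm, ?_⟩
  rw [S.red_sub (sub_mem hY (pow_mem hZc q)) hm, hrz, sub_zero, S.red_sub hY (pow_mem hZc q),
    S.red_pow hZc]

end Fermat.Agent.S36G
end
end MergeWrap_S36_Seed_UHorAbs

section MergeWrap_S36_Seed_UHor -- from S36/Seed/UHor.lean

set_option autoImplicit false
set_option linter.style.haveILetI false
set_option linter.unusedSectionVars false
set_option synthInstance.maxHeartbeats 400000

noncomputable section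

namespace Fermat.Agent.S36G

open ModularCurve AlgebraicCurve Fermat.Agent.F3 Fermat.Agent.F3G Fermat.Agent.GaussInt
  Fermat.Agent.Deuring Fermat.Agent.BadRed Fermat.Agent.HPVal Fermat.Agent.HP Fermat.Agent.RR
  Polynomial Fermat.Agent.NodeConst

local notation "Qb" => AlgebraicClosure ℚ

attribute [local instance 10000] SubalgebraClass.toAlgebra HahnSeries.powerSeriesAlgebra

variable {M₀ q : ℕ} [NeZero M₀] [NeZero q] {A : ValuationSubring Qb}
  {S0 : Fermat.Agent.S18Key.RedSetup Qb (FBar M₀) (IsLocalRing.ResidueField A)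
    ↥(modularFunctionFieldFullC (IsLocalRing.ResidueField A) M₀)}
  {P : Place (IsLocalRing.ResidueField A)
    ↥(modularFunctionFieldFullC (IsLocalRing.ResidueField A) M₀)}
  {FkP : Type} [Field FkP] [Algebra (IsLocalRing.ResidueField A) FkP]

/-- `y` is a root of a monic polynomial over the old copy `ι₁ (R_{P'})` whose reduction at the
centre `P'` is `(X - d) ^ n`. -/
def UHorRoot (O : WPOut M₀ q A S0 P FkP)
    (hFk : IsRRField (IsLocalRing.ResidueField A)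
      ↥(modularFunctionFieldFullC (IsLocalRing.ResidueField A) M₀))
    (y : FBar (M₀ * q * q)) (d : IsLocalRing.ResidueField A) : Prop :=
  ∃ C : Polynomial (discRing S0 O.P'), C.Monic ∧
    C.map (discEv S0 O.P' hFk) = (X - Polynomial.C d) ^ C.natDegree ∧
    Polynomial.eval₂ ((wpdIota1 M₀ q).toRingHom.comp (discRing S0 O.P').subtype) y C = 0

/-- the old functions of the copy `ι₁`, in the form used by `nc_const`. -/
theorem uhor_old1 (O : WPOut M₀ q A S0 P FkP)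
    (hFk : IsRRField (IsLocalRing.ResidueField A)
      ↥(modularFunctionFieldFullC (IsLocalRing.ResidueField A) M₀))
    (b : discRing S0 O.P') :
    ∃ hb : wpdIota1 M₀ q (b : FBar M₀) ∈ O.S.Ov,
      O.S.ρ ⟨_, hb⟩ = algebraMap (IsLocalRing.ResidueField A) FkP (discEv S0 O.P' hFk b) := by
  have hreg : S0.red (b : FBar M₀) ∈ O.P'.toValuationSubring :=
    Fermat.Agent.FF.mem_of_ord_nonneg' O.P' (ord_red_nonneg_of_mem b.2)
  have hval : ValAt O.P' (S0.red (b : FBar M₀)) (discEv S0 O.P' hFk b) := by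
    rw [discEv_apply]
    exact Fermat.Agent.FF.valueAt_spec hFk O.P' hreg
  obtain ⟨h1, h2⟩ := O.old1 (b : FBar M₀) b.2 _ hval
  refine ⟨h1, ?_⟩
  rw [← h2, O.S.red_of_mem h1]

/-- **constancy on `w_P`**: a root of a monic polynomial over `ι₁ (R_{P'})` with reduction
`(X - d) ^ n` at the centre lies in `O_{w_P}` and has the constant residue `d`. -/
theorem uhor_const (O : WPOut M₀ q A S0 P FkP)
    (hFk : IsRRField (IsLocalRing.ResidueField A)
      ↥(modularFunctionFieldFullC (IsLocalRing.ResidueField A) M₀))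
    {y : FBar (M₀ * q * q)} {d : IsLocalRing.ResidueField A} (h : UHorRoot O hFk y d) :
    y ∈ O.S.Ov ∧ O.S.red y = algebraMap (IsLocalRing.ResidueField A) FkP d := by
  obtain ⟨C, hCm, hCev, hroot⟩ := h
  -- the inclusion `R_{P'} → O_{w_P}`
  let incl : discRing S0 O.P' →+* O.S.Ov :=
    ((wpdIota1 M₀ q).toRingHom.comp (discRing S0 O.P').subtype).codRestrict O.S.Ov
      fun b => (uhor_old1 O hFk b).1
  have hincl : O.S.Ov.subtype.comp incl =
      (wpdIota1 M₀ q).toRingHom.comp (discRing S0 O.P').subtype := by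
    ext b
    rfl
  have hρ : O.S.ρ.comp incl =
      (algebraMap (IsLocalRing.ResidueField A) FkP).comp (discEv S0 O.P' hFk) := by
    ext b
    exact (uhor_old1 O hFk b).2
  set G : Polynomial O.S.Ov := C.map incl with hG
  have hGm : G.Monic := hCm.map incl
  have hGroot : (G.map O.S.Ov.subtype).eval y = 0 := by
    rw [hG, Polynomial.map_map, hincl, Polynomial.eval_map]
    exact hroot
  have hy : y ∈ O.S.Ov := nc_mem_of_monic_root O.S.Ov G hGm y hGroot
  refine ⟨hy, ?_⟩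
  rw [O.S.red_of_mem hy]
  refine nc_res_of_monic_root O.S.Ov O.S.ρ G y hy hGroot _ C.natDegree ?_
  rw [hG, Polynomial.map_map, hρ, ← Polynomial.map_map, hCev, Polynomial.map_pow,
    Polynomial.map_sub, Polynomial.map_X, Polynomial.map_C]

/-- **SEED-UP, `u₁`**: `red (u₁ / ϖ ^ 12) = c X₁ ^ 12` with a constant `c ≠ 0`. -/
theorem uhor_u1 (O : WPOut M₀ q A S0 P FkP)
    (hFk : IsRRField (IsLocalRing.ResidueField A)
      ↥(modularFunctionFieldFullC (IsLocalRing.ResidueField A) M₀))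
    (hq : q.Prime) (hϖA : O.ϖ ∈ O.S.A) (hϖr : O.S.res ⟨O.ϖ, hϖA⟩ = 0)
    {u H R : FBar (M₀ * q * q)} {dH dR : IsLocalRing.ResidueField A}
    (hdH : dH ≠ 0) (hdR : dR ≠ 0)
    (hrel : u * R ^ 12 = H * (wpIota0 M₀ q O.t - wpdIota1 M₀ q O.t ^ q) ^ 12)
    (hH : UHorRoot O hFk H dH) (hR : UHorRoot O hFk R dR) :
    ∃ c : IsLocalRing.ResidueField A, c ≠ 0 ∧
      u / algebraMap Qb (FBar (M₀ * q * q)) (O.ϖ ^ 12) ∈ O.S.Ov ∧
      O.S.red (u / algebraMap Qb (FBar (M₀ * q * q)) (O.ϖ ^ 12)) =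
        algebraMap (IsLocalRing.ResidueField A) FkP c * O.H.X1 ^ 12 := by
  have hϖ : O.ϖ ≠ 0 := O.ϖ_ne hq
  have haA : O.a ∈ O.S.A := by rw [O.A_eq]; exact O.a_mem
  obtain ⟨hHm, hHr⟩ := uhor_const O hFk hH
  obtain ⟨-, hRr⟩ := uhor_const O hFk hR
  obtain ⟨hZm, hZr⟩ := uhor_Z_first O.S hq.two_le hϖ hϖA hϖr haA O.a_pow
    (T₀ := wpIota0 M₀ q O.t) (T₁ := wpdIota1 M₀ q O.t) O.W_mem O.Y_mem
  obtain ⟨hum, hur⟩ := uhor_red O.S hϖ 12 hrel hdR hHm hHr hRr hZm
  refine ⟨dH / dR ^ 12, div_ne_zero hdH (pow_ne_zero _ hdR), hum, ?_⟩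
  rw [hur, hZr]
  congr 2
  exact O.red_W

/-- **SEED-UP, `u₂`**: `red (ϖ ^ (12 q) / u₂) = c X₂ ^ 12` with a constant `c ≠ 0`. -/
theorem uhor_u2 [CharP (IsLocalRing.ResidueField A) q] (O : WPOut M₀ q A S0 P FkP)
    (hFk : IsRRField (IsLocalRing.ResidueField A)
      ↥(modularFunctionFieldFullC (IsLocalRing.ResidueField A) M₀))
    (hq : q.Prime) (hϖA : O.ϖ ∈ O.S.A) (hϖr : O.S.res ⟨O.ϖ, hϖA⟩ = 0)
    {u H R : FBar (M₀ * q * q)} {dH dR : IsLocalRing.ResidueField A}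
    (hdH : dH ≠ 0) (hdR : dR ≠ 0)
    (hrel : u * R ^ 12 = H * (wpdIota1 M₀ q O.t - wpIota2 M₀ q O.t ^ q) ^ 12)
    (hH : UHorRoot O hFk H dH) (hR : UHorRoot O hFk R dR) :
    ∃ c : IsLocalRing.ResidueField A, c ≠ 0 ∧
      (u / algebraMap Qb (FBar (M₀ * q * q)) ((O.ϖ ^ q) ^ 12))⁻¹ ∈ O.S.Ov ∧
      O.S.red ((u / algebraMap Qb (FBar (M₀ * q * q)) ((O.ϖ ^ q) ^ 12))⁻¹) =
        algebraMap (IsLocalRing.ResidueField A) FkP c * O.H.X2 ^ 12 := by
  have hϖ : O.ϖ ≠ 0 := O.ϖ_ne hq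
  have haA : O.a ∈ O.S.A := by rw [O.A_eq]; exact O.a_mem
  obtain ⟨hHm, hHr⟩ := uhor_const O hFk hH
  obtain ⟨-, hRr⟩ := uhor_const O hFk hR
  obtain ⟨hZm, hZr⟩ := uhor_Z_second O.S hq hϖ hϖA hϖr O.ϖ_pow haA
    (T₁ := wpdIota1 M₀ q O.t) (T₂ := wpIota2 M₀ q O.t) O.Y_mem O.Z_mem
  obtain ⟨hum, hur⟩ := uhor_red O.S (pow_ne_zero q hϖ) 12 hrel hdR hHm hHr hRr hZm
  -- the reduction of `Z / ϖ ^ q` is `c / X₂`
  have hY : O.S.red ((wpdIota1 M₀ q O.t - algebraMap Qb (FBar (M₀ * q * q)) (O.a ^ q)) /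
      algebraMap Qb (FBar (M₀ * q * q)) (O.ϖ ^ q)) = O.H.Yf := O.red_Y
  have hZc : O.S.red ((wpIota2 M₀ q O.t - algebraMap Qb (FBar (M₀ * q * q)) O.a) /
      algebraMap Qb (FBar (M₀ * q * q)) O.ϖ) = O.H.X2 := O.red_Z
  have hX2 := O.H.X2_ne
  have hcF : algebraMap (IsLocalRing.ResidueField A) FkP O.H.c ≠ 0 := O.H.algebraMap_c_ne
  have hZr' : O.S.red ((wpdIota1 M₀ q O.t - wpIota2 M₀ q O.t ^ q) /
      algebraMap Qb (FBar (M₀ * q * q)) (O.ϖ ^ q)) =
      algebraMap (IsLocalRing.ResidueField A) FkP O.H.c / O.H.X2 := by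
    rw [hZr, hY, hZc, O.H.Yf_eq_X2 hq]
    ring
  rw [hZr'] at hur
  set x := u / algebraMap Qb (FBar (M₀ * q * q)) ((O.ϖ ^ q) ^ 12) with hx
  have hdF : algebraMap (IsLocalRing.ResidueField A) FkP (dH / dR ^ 12) ≠ 0 :=
    (_root_.map_ne_zero _).mpr (div_ne_zero hdH (pow_ne_zero _ hdR))
  have hxr : O.S.red x ≠ 0 := by
    rw [hur]
    exact mul_ne_zero hdF (pow_ne_zero _ (div_ne_zero hcF hX2))
  have hxi : x⁻¹ ∈ O.S.Ov := O.S.inv_mem_of_red_ne_zero hxr
  have hx0 : x ≠ 0 := O.S.ne_zero_of_red_ne_zero hxr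
  refine ⟨(dH / dR ^ 12 * O.H.c ^ 12)⁻¹, ?_, hxi, ?_⟩
  · exact inv_ne_zero (mul_ne_zero (div_ne_zero hdH (pow_ne_zero _ hdR))
      (pow_ne_zero _ O.H.c_ne))
  · rw [O.S.red_inv hum hxi hx0, hur, map_inv₀, map_mul, map_pow, div_pow]
    field_simp

end Fermat.Agent.S36G
end
end MergeWrap_S36_Seed_UHor
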