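import Mathlib
import Fermat.Agent.MUL.S36.HPVal.ExTDefs
import Fermat.Agent.MUL.S36.HPVal.DiscMod
import Fermat.Agent.MUL.S36.Seed.UHor

section MergeWrap_S36_Seed_UHorDatum -- from S36/Seed/UHorDatum.lean

set_option autoImplicit false
set_option linter.style.haveILetI false
set_option linter.unusedSectionVars false
set_option synthInstance.maxHeartbeats 400000

noncomputable section

namespace Fermat.Agent.S36G

open ModularCurve AlgebraicCurve Fermat.Agent.Deuring Fermat.Agent.GaussInt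

local notation "Qb" => AlgebraicClosure ℚ

/-- **the datum `t` is of type EX_t**: rational, with `A`-integral expansion, poles only at the
cusps. -/
def UHorDatum (A : ValuationSubring Qb) {M₀ : ℕ} [NeZero M₀] (t : modularFunctionFieldBar M₀) : Prop :=
  ∃ t0 : LaurentSeries ℚ, ((t : modularFunctionFieldBar M₀) : LaurentSeries Qb) = coeffEmb Qb t0 ∧
    (∀ n : ℤ, algebraMap ℚ Qb (t0.coeff n) ∈ A) ∧
    ∀ Q' : Place Qb (modularFunctionFieldBar M₀), 0 ≤ Q'.ord (Fermat.Agent.S24.jBar M₀) → 0 ≤ Q'.ord t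

/-- the datum of EX_t is of type EX_t. -/
theorem uhorDatum_of_exT {A : ValuationSubring Qb} {q M₀ : ℕ} [NeZero M₀] {hq : q.Prime}
    {hA : A.LiesOverPrime q} {hqM : ¬ q ∣ M₀}
    {P : Place (IsLocalRing.ResidueField A)
      (modularFunctionFieldFullC (IsLocalRing.ResidueField A) M₀)}
    {t0 : LaurentSeries ℚ} (Dt : ExTDatum A q M₀ hq hA hqM P t0) :
    UHorDatum A (wpdT M₀ t0 Dt.mem) :=
  ⟨t0, rfl, Dt.int, fun Q' hQ' => Dt.poles _ Q' hQ'⟩

end Fermat.Agent.S36G
end
end MergeWrap_S36_Seed_UHorDatum
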