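import Mathlib
import Fermat.Agent.MUL.S36.Seed.UHor
import Fermat.Agent.MUL.S36.Seed.UHorDefs
import Fermat.Agent.MUL.S36.Seed.U2
import Fermat.Agent.MUL.S36.Seed.Ends
import Fermat.Agent.MUL.S36.G.VtxFamily
import Fermat.Agent.MUL.S36.HPVal.DiscMod
import Fermat.Agent.MUL.S36.G.ModWorldNonempty

section MergeWrap_S36_Seed_UHorAsm -- from S36/Seed/UHorAsm.lean

set_option autoImplicit false
set_option linter.style.haveILetI false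
set_option linter.unusedSectionVars false
set_option linter.unusedVariables false
set_option synthInstance.maxHeartbeats 400000

noncomputable section

namespace Fermat.Agent.S36G

open ModularCurve AlgebraicCurve Fermat.Agent.F3 Fermat.Agent.F3G Fermat.Agent.GaussInt
  Fermat.Agent.Deuring Fermat.Agent.BadRed Fermat.Agent.HPVal Fermat.Agent.HP Fermat.Agent.RR
  Fermat.Agent.BadRedG

local notation "Qb" => AlgebraicClosure ℚ

attribute [local instance 10000] SubalgebraClass.toAlgebra HahnSeries.powerSeriesAlgebra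

/-! ### the two copies of the level `M₀ q` functions -/

section Copies

variable (M₀ q : ℕ) [NeZero M₀] [NeZero q]

theorem uhasm_dvd1 : q ∣ M₀ * q * q := Dvd.intro_left (M₀ * q) rfl

theorem uhasm_dvd2 : q * q ∣ M₀ * q * q := ⟨M₀, by ring⟩

/-- `a u₁' = u₁`. -/
theorem uhasm_alpha_u :
    heckeAlphaBar Qb (M₀ * q) q (uhU M₀ q) = uF (M₀ * q * q) q (uhasm_dvd1 M₀ q) := by
  apply Subtype.ext
  rw [coe_heckeAlphaBar, coe_uhU, coe_uF]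

/-- `b u₁' = u₂`. -/
theorem uhasm_beta_u :
    heckeBetaBar Qb (M₀ * q) q (uhU M₀ q) = uF2 (M₀ * q * q) q (uhasm_dvd2 M₀ q) := by
  apply Subtype.ext
  rw [coe_heckeBetaBar, coe_uhU, coe_uF2]
  rfl

/-- `a Z = ι₀ t - (ι₁ t) ^ q`. -/
theorem uhasm_alpha_Z (t : FBar M₀) :
    heckeAlphaBar Qb (M₀ * q) q (uhZ M₀ q t) = wpIota0 M₀ q t - wpdIota1 M₀ q t ^ q := by
  unfold uhZ wpIota0 wpdIota1
  rw [map_sub, map_pow]
  rfl

/-- `b Z = ι₁ t - (ι₂ t) ^ q`. -/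
theorem uhasm_beta_Z (t : FBar M₀) :
    heckeBetaBar Qb (M₀ * q) q (uhZ M₀ q t) = wpdIota1 M₀ q t - wpIota2 M₀ q t ^ q := by
  rw [wpdIota1_eq_beta_alpha]
  unfold uhZ wpIota2
  rw [map_sub, map_pow]
  rfl

/-- the relation `u₁ (a R) ^ 12 = (a H) (ι₀ t - (ι₁ t) ^ q) ^ 12`. -/
theorem uhasm_rel_alpha (t : FBar M₀) :
    uF (M₀ * q * q) q (uhasm_dvd1 M₀ q) * heckeAlphaBar Qb (M₀ * q) q (uhR M₀ q t) ^ 12 =
      heckeAlphaBar Qb (M₀ * q) q (uhH M₀ q t) *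
        (wpIota0 M₀ q t - wpdIota1 M₀ q t ^ q) ^ 12 := by
  rw [← uhasm_alpha_u, ← uhasm_alpha_Z, ← map_pow, ← map_pow, ← map_mul, ← map_mul, uh_rel]

/-- the relation `u₂ (b R) ^ 12 = (b H) (ι₁ t - (ι₂ t) ^ q) ^ 12`. -/
theorem uhasm_rel_beta (t : FBar M₀) :
    uF2 (M₀ * q * q) q (uhasm_dvd2 M₀ q) * heckeBetaBar Qb (M₀ * q) q (uhR M₀ q t) ^ 12 =
      heckeBetaBar Qb (M₀ * q) q (uhH M₀ q t) *
        (wpdIota1 M₀ q t - wpIota2 M₀ q t ^ q) ^ 12 := by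
  rw [← uhasm_beta_u, ← uhasm_beta_Z, ← map_pow, ← map_pow, ← map_mul, ← map_mul, uh_rel]

end Copies

/-! ### change of the constant by a unit -/

section Scale

variable {K F k Fk : Type*} [Field K] [Field F] [Algebra K F] [Field k] [Field Fk]
  [Algebra k Fk]

/-- the residue of a unit of `A` is not zero. -/
theorem uhasm_res_ne_zero (S : ValSetup K F k Fk) {ζ : K} (hζ : ζ ∈ S.A) (hζ' : ζ⁻¹ ∈ S.A)
    (hζ0 : ζ ≠ 0) : S.res ⟨ζ, hζ⟩ ≠ 0 := by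
  intro h
  have h1 : S.red (algebraMap K F ζ) = 0 := by
    rw [S.red_algebraMap hζ, h, map_zero]
  have h2 : algebraMap K F ζ ≠ 0 := (_root_.map_ne_zero (algebraMap K F)).mpr hζ0
  have h3 := (S.red_eq_zero_iff (S.algebraMap_mem hζ) h2).mp h1
  apply h3
  rw [← map_inv₀]
  exact S.algebraMap_mem hζ'

/-- **change of the constant**: if `red x = c X` then `red (ζ x) = (res ζ · c) X` for a unit
`ζ` of `A`. -/
theorem uhasm_scale (S : ValSetup K F k Fk) {x : F} {c : k} {X : Fk} (hc : c ≠ 0)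
    (hx : x ∈ S.Ov) (hr : S.red x = algebraMap k Fk c * X)
    {ζ : K} (hζ : ζ ∈ S.A) (hζ' : ζ⁻¹ ∈ S.A) (hζ0 : ζ ≠ 0) :
    ∃ c' : k, c' ≠ 0 ∧ algebraMap K F ζ * x ∈ S.Ov ∧
      S.red (algebraMap K F ζ * x) = algebraMap k Fk c' * X := by
  refine ⟨S.res ⟨ζ, hζ⟩ * c, mul_ne_zero (uhasm_res_ne_zero S hζ hζ' hζ0) hc,
    mul_mem (S.algebraMap_mem hζ) hx, ?_⟩
  rw [S.red_mul (S.algebraMap_mem hζ) hx, S.red_algebraMap hζ, hr, map_mul, mul_assoc]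

end Scale

/-! ### the reductions of `u₁`, `u₂` on `w_P` -/

section Main

variable {M₀ q : ℕ} [NeZero M₀] [NeZero q] {A : ValuationSubring Qb}
  {S0 : Fermat.Agent.S18Key.RedSetup Qb (FBar M₀) (IsLocalRing.ResidueField A)
    ↥(modularFunctionFieldFullC (IsLocalRing.ResidueField A) M₀)}
  {P : Place (IsLocalRing.ResidueField A)
    ↥(modularFunctionFieldFullC (IsLocalRing.ResidueField A) M₀)}
  {FkP : Type} [Field FkP] [Algebra (IsLocalRing.ResidueField A) FkP]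

/-- `ϖ ∈ A`. -/
theorem uhasm_pi_mem (O : WPOut M₀ q A S0 P FkP) : O.ϖ ∈ O.S.A := by
  rw [O.A_eq]
  refine wpd_mem_of_pow_mem (Nat.succ_ne_zero q) ?_
  rw [O.ϖ_pow]
  exact natCast_mem A q

/-- `ϖ⁻¹ ∉ A`. -/
theorem uhasm_pi_inv_not_mem (O : WPOut M₀ q A S0 P FkP) (hq : q.Prime)
    (hA : A.LiesOverPrime q) : O.ϖ⁻¹ ∉ A := by
  intro hinv
  have hq0 : (q : Qb) ≠ 0 := Nat.cast_ne_zero.mpr hq.ne_zero
  have hqinv : (q : Qb)⁻¹ ∉ A := by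
    have h2 : (q : Qb) ∈ A.nonunits := hA
    rw [ValuationSubring.mem_nonunits_iff_or] at h2
    exact h2.resolve_left hq0
  apply hqinv
  rw [← O.ϖ_pow, ← inv_pow]
  exact pow_mem hinv _

/-- `res ϖ = 0`. -/
theorem uhasm_pi_res (O : WPOut M₀ q A S0 P FkP) (hq : q.Prime) (hA : A.LiesOverPrime q) :
    O.S.res ⟨O.ϖ, uhasm_pi_mem O⟩ = 0 := by
  have hϖA : O.ϖ ∈ A := by
    have := uhasm_pi_mem O
    rwa [O.A_eq] at this
  rw [O.res_eq O.ϖ (uhasm_pi_mem O) hϖA]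
  exact wpd_residue_eq_zero hϖA (Or.inr (uhasm_pi_inv_not_mem O hq hA))

/-- **SEED-UP (2)**: `red (u₁ / ϖ ^ 12) = c X₁ ^ 12`, `c ≠ 0`. -/
theorem uhorAsm_u1 (O : WPOut M₀ q A S0 P FkP)
    (hFk : IsRRField (IsLocalRing.ResidueField A)
      ↥(modularFunctionFieldFullC (IsLocalRing.ResidueField A) M₀))
    (hq : q.Prime) (hA : A.LiesOverPrime q)
    {dH dR : IsLocalRing.ResidueField A} (hdH : dH ≠ 0) (hdR : dR ≠ 0)
    (hH : UHorRoot O hFk (heckeAlphaBar Qb (M₀ * q) q (uhH M₀ q O.t)) dH)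
    (hR : UHorRoot O hFk (heckeAlphaBar Qb (M₀ * q) q (uhR M₀ q O.t)) dR) :
    ∃ c : IsLocalRing.ResidueField A, c ≠ 0 ∧
      uF (M₀ * q * q) q (uhasm_dvd1 M₀ q) / algebraMap Qb (FBar (M₀ * q * q)) (O.ϖ ^ 12) ∈
        O.S.Ov ∧
      O.S.red (uF (M₀ * q * q) q (uhasm_dvd1 M₀ q) /
          algebraMap Qb (FBar (M₀ * q * q)) (O.ϖ ^ 12)) =
        algebraMap (IsLocalRing.ResidueField A) FkP c * O.H.X1 ^ 12 :=
  uhor_u1 O hFk hq (uhasm_pi_mem O) (uhasm_pi_res O hq hA) hdH hdR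
    (uhasm_rel_alpha M₀ q O.t) hH hR

/-- **SEED-UP (1)**: `red (ϖ ^ 12 / u₁) = c (X₁ ^ 12)⁻¹`, `c ≠ 0`. -/
theorem uhorAsm_u1_inv (O : WPOut M₀ q A S0 P FkP)
    (hFk : IsRRField (IsLocalRing.ResidueField A)
      ↥(modularFunctionFieldFullC (IsLocalRing.ResidueField A) M₀))
    (hq : q.Prime) (hA : A.LiesOverPrime q)
    {dH dR : IsLocalRing.ResidueField A} (hdH : dH ≠ 0) (hdR : dR ≠ 0)
    (hH : UHorRoot O hFk (heckeAlphaBar Qb (M₀ * q) q (uhH M₀ q O.t)) dH)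
    (hR : UHorRoot O hFk (heckeAlphaBar Qb (M₀ * q) q (uhR M₀ q O.t)) dR) :
    ∃ c : IsLocalRing.ResidueField A, c ≠ 0 ∧
      algebraMap Qb (FBar (M₀ * q * q)) (O.ϖ ^ 12) / uF (M₀ * q * q) q (uhasm_dvd1 M₀ q) ∈
        O.S.Ov ∧
      O.S.red (algebraMap Qb (FBar (M₀ * q * q)) (O.ϖ ^ 12) /
          uF (M₀ * q * q) q (uhasm_dvd1 M₀ q)) =
        algebraMap (IsLocalRing.ResidueField A) FkP c * (O.H.X1 ^ 12)⁻¹ := by
  obtain ⟨c, hc, hm, hr⟩ := uhorAsm_u1 O hFk hq hA hdH hdR hH hR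
  set x := uF (M₀ * q * q) q (uhasm_dvd1 M₀ q) /
    algebraMap Qb (FBar (M₀ * q * q)) (O.ϖ ^ 12) with hx
  have hcF : algebraMap (IsLocalRing.ResidueField A) FkP c ≠ 0 :=
    (_root_.map_ne_zero _).mpr hc
  have hne : O.S.red x ≠ 0 := by
    rw [hr]
    exact mul_ne_zero hcF (pow_ne_zero _ O.H.X1_ne)
  have hinv : x⁻¹ = algebraMap Qb (FBar (M₀ * q * q)) (O.ϖ ^ 12) /
      uF (M₀ * q * q) q (uhasm_dvd1 M₀ q) := by
    rw [hx, inv_div]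
  rw [← hinv]
  refine ⟨c⁻¹, inv_ne_zero hc, O.S.inv_mem_of_red_ne_zero hne, ?_⟩
  rw [O.S.red_inv hm (O.S.inv_mem_of_red_ne_zero hne) (O.S.ne_zero_of_red_ne_zero hne), hr,
    mul_inv, map_inv₀]

/-- **SEED-UP (A)**: `red (ϖ ^ (12 q) / u₂) = c X₂ ^ 12`, `c ≠ 0`. -/
theorem uhorAsm_u2 [CharP (IsLocalRing.ResidueField A) q] (O : WPOut M₀ q A S0 P FkP)
    (hFk : IsRRField (IsLocalRing.ResidueField A)
      ↥(modularFunctionFieldFullC (IsLocalRing.ResidueField A) M₀))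
    (hq : q.Prime) (hA : A.LiesOverPrime q)
    {dH dR : IsLocalRing.ResidueField A} (hdH : dH ≠ 0) (hdR : dR ≠ 0)
    (hH : UHorRoot O hFk (heckeBetaBar Qb (M₀ * q) q (uhH M₀ q O.t)) dH)
    (hR : UHorRoot O hFk (heckeBetaBar Qb (M₀ * q) q (uhR M₀ q O.t)) dR) :
    ∃ c : IsLocalRing.ResidueField A, c ≠ 0 ∧
      algebraMap Qb (FBar (M₀ * q * q)) (O.ϖ ^ (12 * q)) /
        uF2 (M₀ * q * q) q (uhasm_dvd2 M₀ q) ∈ O.S.Ov ∧
      O.S.red (algebraMap Qb (FBar (M₀ * q * q)) (O.ϖ ^ (12 * q)) /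
          uF2 (M₀ * q * q) q (uhasm_dvd2 M₀ q)) =
        algebraMap (IsLocalRing.ResidueField A) FkP c * O.H.X2 ^ 12 := by
  obtain ⟨c, hc, hm, hr⟩ := uhor_u2 O hFk hq (uhasm_pi_mem O) (uhasm_pi_res O hq hA) hdH hdR
    (uhasm_rel_beta M₀ q O.t) hH hR
  have e : (uF2 (M₀ * q * q) q (uhasm_dvd2 M₀ q) /
      algebraMap Qb (FBar (M₀ * q * q)) ((O.ϖ ^ q) ^ 12))⁻¹ =
      algebraMap Qb (FBar (M₀ * q * q)) (O.ϖ ^ (12 * q)) /
        uF2 (M₀ * q * q) q (uhasm_dvd2 M₀ q) := by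
    rw [inv_div, ← pow_mul, mul_comm q 12]
  rw [e] at hm hr
  exact ⟨c, hc, hm, hr⟩

end Main

/-! ### the family forms -/

section Family

variable {M₀ q : ℕ} [NeZero M₀] [NeZero q] {A : ValuationSubring Qb}
  {S0 : Fermat.Agent.S18Key.RedSetup Qb (FBar M₀) (IsLocalRing.ResidueField A)
    ↥(modularFunctionFieldFullC (IsLocalRing.ResidueField A) M₀)}
  {Mid SS : Type}
  {Fk0 : Type} [Field Fk0] [Algebra (IsLocalRing.ResidueField A) Fk0]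
  {FkM : Mid → Type} [∀ m, Field (FkM m)] [∀ m, Algebra (IsLocalRing.ResidueField A) (FkM m)]
  {FkP : SS → Type} [∀ P, Field (FkP P)] [∀ P, Algebra (IsLocalRing.ResidueField A) (FkP P)]
  (Soo S00 : ValSetup Qb (FBar (M₀ * q * q)) (IsLocalRing.ResidueField A) Fk0)
  (Sm : ∀ m, ValSetup Qb (FBar (M₀ * q * q)) (IsLocalRing.ResidueField A) (FkM m))
  (Pl : SS → Place (IsLocalRing.ResidueField A)
    ↥(modularFunctionFieldFullC (IsLocalRing.ResidueField A) M₀))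
  (O : ∀ P : SS, WPOut M₀ q A S0 (Pl P) (FkP P))
  (hFk : IsRRField (IsLocalRing.ResidueField A)
    ↥(modularFunctionFieldFullC (IsLocalRing.ResidueField A) M₀))
  (hq : q.Prime) (hA : A.LiesOverPrime q) (ϖ : Qb) (hϖ : ∀ P, (O P).ϖ = ϖ)

include hq hA hϖ in
/-- **`EndsRed2`** for `x2 = u₁ / ϖ ^ 12`. -/
theorem uhorAsm_endsRed2
    (h : ∀ P : SS, ∃ dH dR : IsLocalRing.ResidueField A, dH ≠ 0 ∧ dR ≠ 0 ∧
      UHorRoot (O P) hFk (heckeAlphaBar Qb (M₀ * q) q (uhH M₀ q (O P).t)) dH ∧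
      UHorRoot (O P) hFk (heckeAlphaBar Qb (M₀ * q) q (uhR M₀ q (O P).t)) dR) :
    EndsRed2 (vtxFamily Soo S00 Sm fun P => (O P).S) (fun P => (O P).H)
      (uF (M₀ * q * q) q (uhasm_dvd1 M₀ q) / algebraMap Qb (FBar (M₀ * q * q)) (ϖ ^ 12)) := by
  intro P
  obtain ⟨dH, dR, hdH, hdR, hH, hR⟩ := h P
  obtain ⟨c, hc, -, hr⟩ := uhorAsm_u1 (O P) hFk hq hA hdH hdR hH hR
  rw [hϖ P] at hr
  exact ⟨c, hc, hr⟩

include hq hA hϖ in
/-- **`EndsRed1`** for `x1 = ϖ ^ 12 / u₁`. -/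
theorem uhorAsm_endsRed1
    (h : ∀ P : SS, ∃ dH dR : IsLocalRing.ResidueField A, dH ≠ 0 ∧ dR ≠ 0 ∧
      UHorRoot (O P) hFk (heckeAlphaBar Qb (M₀ * q) q (uhH M₀ q (O P).t)) dH ∧
      UHorRoot (O P) hFk (heckeAlphaBar Qb (M₀ * q) q (uhR M₀ q (O P).t)) dR) :
    EndsRed1 (vtxFamily Soo S00 Sm fun P => (O P).S) (fun P => (O P).H)
      (algebraMap Qb (FBar (M₀ * q * q)) (ϖ ^ 12) / uF (M₀ * q * q) q (uhasm_dvd1 M₀ q)) := by
  intro P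
  obtain ⟨dH, dR, hdH, hdR, hH, hR⟩ := h P
  obtain ⟨c, hc, -, hr⟩ := uhorAsm_u1_inv (O P) hFk hq hA hdH hdR hH hR
  rw [hϖ P] at hr
  exact ⟨c, hc, hr⟩

include hq hA hϖ in
/-- **`EndsRedA`** for `xA = ϖ ^ (12 q) / u₂`. -/
theorem uhorAsm_endsRedA [CharP (IsLocalRing.ResidueField A) q]
    (h : ∀ P : SS, ∃ dH dR : IsLocalRing.ResidueField A, dH ≠ 0 ∧ dR ≠ 0 ∧
      UHorRoot (O P) hFk (heckeBetaBar Qb (M₀ * q) q (uhH M₀ q (O P).t)) dH ∧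
      UHorRoot (O P) hFk (heckeBetaBar Qb (M₀ * q) q (uhR M₀ q (O P).t)) dR) :
    EndsRedA (vtxFamily Soo S00 Sm fun P => (O P).S) (fun P => (O P).H)
      (algebraMap Qb (FBar (M₀ * q * q)) (ϖ ^ (12 * q)) /
        uF2 (M₀ * q * q) q (uhasm_dvd2 M₀ q)) := by
  intro P
  obtain ⟨dH, dR, hdH, hdR, hH, hR⟩ := h P
  obtain ⟨c, hc, -, hr⟩ := uhorAsm_u2 (O P) hFk hq hA hdH hdR hH hR
  rw [hϖ P] at hr
  exact ⟨c, hc, hr⟩

end Family

end Fermat.Agent.S36G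
end
end MergeWrap_S36_Seed_UHorAsm
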